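import Mathlib
import Fermat.Agent.GalRep.Coeff

/-!
# Generic lemmas for the finiteness argument

Limits of `X ^ (l ^ n)` for a matrix idempotent modulo `l`, traces and ranks of idempotent matrices
over `ℤ_l`, spanning a separated module from its reduction modulo `l`, and idempotent powers in
finite monoids.
-/

set_option autoImplicit false

noncomputable section

open Matrix

namespace Fermat.Agent.MazurStep.Finite

section Monoid

variable {M : Type*} [Monoid M] [_root_.Finite M]

/-- Some positive power of an element of a finite monoid is idempotent. -/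
theorem exists_pow_mul_pow (x : M) : ∃ n : ℕ, 0 < n ∧ x ^ n * x ^ n = x ^ n := by
  obtain ⟨a, b, hne, hab⟩ := Finite.exists_ne_map_eq_of_infinite fun i : ℕ => x ^ i
  obtain ⟨i, j, hij, h⟩ : ∃ i j, i < j ∧ x ^ i = x ^ j := by
    rcases lt_or_gt_of_ne hne with h | h
    · exact ⟨a, b, h, hab⟩
    · exact ⟨b, a, h, hab.symm⟩
  obtain ⟨d, rfl⟩ : ∃ d, j = i + (d + 1) := ⟨j - i - 1, by omega⟩
  have hper : ∀ k, i ≤ k → ∀ m : ℕ, x ^ (k + m * (d + 1)) = x ^ k := by
    intro k hk m
    induction m with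
    | zero => simp
    | succ m ih =>
      rw [show k + (m + 1) * (d + 1) = i + (d + 1) + (k - i + m * (d + 1)) by
          rw [Nat.succ_mul]; omega, pow_add, ← h, ← pow_add,
        show i + (k - i + m * (d + 1)) = k + m * (d + 1) by omega, ih]
  refine ⟨(i + 1) * (d + 1), by positivity, ?_⟩
  rw [← pow_add]
  exact hper _ ((Nat.le_succ i).trans (Nat.le_mul_of_pos_right _ d.succ_pos)) (i + 1)

end Monoid

variable {n : Type*} [Fintype n] [DecidableEq n]

/-- Congruent commuting matrices have congruent `l`-th powers, one step further. -/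
theorem exists_pow_prime_sub {l j : ℕ} (hj : 1 ≤ j) {a b D : Matrix n n ℤ} (hab : Commute a b)
    (h : a - b = (l : ℤ) ^ j • D) : ∃ D', a ^ l - b ^ l = (l : ℤ) ^ (j + 1) • D' := by
  let π := (Int.castRingHom (ZMod l)).mapMatrix (m := n)
  have hl0 : ((l : ℤ) : ZMod l) = 0 := by rw [Int.cast_natCast, ZMod.natCast_self]
  have hπ : π a = π b := by
    rw [← sub_eq_zero, ← map_sub, h]
    ext r s
    show ((((l : ℤ) ^ j • D) r s : ℤ) : ZMod l) = 0
    rw [Matrix.smul_apply, smul_eq_mul, Int.cast_mul, Int.cast_pow, hl0,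
      zero_pow (by omega), zero_mul]
  have hsum : π (∑ i ∈ Finset.range l, a ^ i * b ^ (l - 1 - i)) = 0 := by
    simp only [map_sum, map_mul, map_pow, hπ, ← pow_add]
    rw [Finset.sum_congr rfl fun i hi => by
        rw [show i + (l - 1 - i) = l - 1 by rw [Finset.mem_range] at hi; omega],
      Finset.sum_const, Finset.card_range, ← Nat.cast_smul_eq_nsmul (ZMod l), ZMod.natCast_self,
      zero_smul]
  obtain ⟨Y, hY⟩ : ∃ Y, ∑ i ∈ Finset.range l, a ^ i * b ^ (l - 1 - i) = (l : ℤ) • Y := by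
    have hd : ∀ r s, (l : ℤ) ∣ (∑ i ∈ Finset.range l, a ^ i * b ^ (l - 1 - i)) r s := fun r s =>
      (ZMod.intCast_zmod_eq_zero_iff_dvd _ l).mp (congrFun (congrFun hsum r) s)
    choose Y hY using hd
    exact ⟨Matrix.of Y, Matrix.ext hY⟩
  refine ⟨Y * D, ?_⟩
  rw [← hab.geom_sum₂_mul, h, hY, mul_smul_comm, smul_mul_assoc, smul_smul, ← pow_succ]

/-- Powers of a matrix idempotent modulo `l`. -/
theorem exists_pow_sq_sub {l : ℕ} {X D : Matrix n n ℤ} (h : X * X - X = (l : ℤ) • D) :
    ∀ k : ℕ, ∃ D', (X * X) ^ l ^ k - X ^ l ^ k = (l : ℤ) ^ (k + 1) • D' := by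
  intro k
  induction k with
  | zero => exact ⟨D, by simpa using h⟩
  | succ k ih =>
    obtain ⟨D', hD'⟩ := ih
    have hc : Commute ((X * X) ^ l ^ k) (X ^ l ^ k) :=
      ((Commute.refl X).mul_left (Commute.refl X)).pow_pow _ _
    rw [pow_succ l k, pow_mul, pow_mul]
    exact exists_pow_prime_sub (by omega) hc hD'

variable {l : ℕ} [Fact l.Prime]

/-- **The limit idempotent.** -/
theorem exists_idem_limit {X : Matrix n n ℤ} (hX : ∀ i j, (l : ℤ) ∣ (X * X - X) i j) :
    ∃ E : Matrix n n ℤ_[l], E * E = E ∧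
      (∀ k, E.map (PadicInt.toZModPow k) = (X ^ l ^ k).map (Int.cast : ℤ → ZMod (l ^ k))) ∧
      ∀ k m, k ≤ m → (X ^ l ^ m).map (Int.cast : ℤ → ZMod (l ^ k)) =
        (X ^ l ^ k).map (Int.cast : ℤ → ZMod (l ^ k)) := by
  choose D hD using hX
  have hX' : X * X - X = (l : ℤ) • Matrix.of D := Matrix.ext hD
  let π : ∀ k, Matrix n n ℤ →+* Matrix n n (ZMod (l ^ k)) := fun k =>
    (Int.castRingHom (ZMod (l ^ k))).mapMatrix
  have hidem : ∀ k, π k (X ^ l ^ k) * π k (X ^ l ^ k) = π k (X ^ l ^ k) := by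
    intro k
    obtain ⟨D', hD'⟩ := exists_pow_sq_sub hX' k
    rw [← map_mul, ← (Commute.refl X).mul_pow, ← sub_eq_zero, ← map_sub, hD']
    ext r s
    show ((((l : ℤ) ^ (k + 1) • D') r s : ℤ) : ZMod (l ^ k)) = 0
    rw [Matrix.smul_apply, smul_eq_mul, Int.cast_mul, Int.cast_pow, Int.cast_natCast, pow_succ,
      ← Nat.cast_pow, ZMod.natCast_self, zero_mul, zero_mul]
  have hstep : ∀ k m, k ≤ m → π k (X ^ l ^ m) = π k (X ^ l ^ k) := by
    intro k m hkm
    obtain ⟨e, rfl⟩ := Nat.exists_eq_add_of_le hkm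
    have h1 : 1 ≤ l ^ e := Nat.one_le_pow _ _ (Fact.out : l.Prime).pos
    rw [pow_add l k e, pow_mul, map_pow]
    exact (IsIdempotentElem.pow_eq (hidem k) (by omega))
  choose E hE using fun i j => GalRep.exists_toZModPow_eq (fun k => π k (X ^ l ^ k) i j)
    fun k => by
      rw [← congrFun (congrFun (hstep k (k + 1) k.le_succ) i) j]
      exact map_intCast (ZMod.castHom (pow_dvd_pow l k.le_succ) (ZMod (l ^ k))) _
  have hmap : ∀ k, (PadicInt.toZModPow k).mapMatrix (Matrix.of E) = π k (X ^ l ^ k) := fun k =>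
    Matrix.ext fun i j => hE i j k
  refine ⟨Matrix.of E, Matrix.ext fun i j => PadicInt.ext_of_toZModPow.mp fun k => ?_, hmap, hstep⟩
  have h := congrFun (congrFun (show (PadicInt.toZModPow k).mapMatrix (Matrix.of E * Matrix.of E) =
    (PadicInt.toZModPow k).mapMatrix (Matrix.of E) by rw [map_mul, hmap, hidem]) i) j
  exact h

/-- Traces of limits. -/
theorem trace_eq_two_mul_of_limit {m : Type*} [Fintype m] [DecidableEq m] {X : Matrix n n ℤ}
    {Y : Matrix m m ℤ} {E : Matrix n n ℤ_[l]} {F : Matrix m m ℤ_[l]}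
    (hE : ∀ k, E.map (PadicInt.toZModPow k) = (X ^ l ^ k).map (Int.cast : ℤ → ZMod (l ^ k)))
    (hF : ∀ k, F.map (PadicInt.toZModPow k) = (Y ^ l ^ k).map (Int.cast : ℤ → ZMod (l ^ k)))
    (h : ∀ j : ℕ, (X ^ j).trace = 2 * (Y ^ j).trace) : E.trace = 2 * F.trace := by
  refine PadicInt.ext_of_toZModPow.mp fun k => ?_
  rw [map_mul, map_ofNat, AddMonoidHom.map_trace, AddMonoidHom.map_trace, hE, hF]
  simp only [Matrix.trace, Matrix.diag_apply, Matrix.map_apply, ← Int.cast_sum]
  have := congrArg (Int.cast : ℤ → ZMod (l ^ k)) (h (l ^ k))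
  simpa [Matrix.trace] using this

/-- The trace of an idempotent matrix is its rank. -/
theorem trace_eq_rank {K : Type*} [Field K] {E : Matrix n n K} (hE : E * E = E) :
    E.trace = (Module.finrank K (LinearMap.range E.mulVecLin) : K) := by
  have hp : LinearMap.IsProj (LinearMap.range E.mulVecLin) E.mulVecLin := by
    refine ⟨fun x => LinearMap.mem_range_self _ x, fun x hx => ?_⟩
    obtain ⟨y, rfl⟩ := hx
    rw [Matrix.mulVecLin_apply, Matrix.mulVecLin_apply, Matrix.mulVec_mulVec, hE]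
  rw [← hp.trace, ← Matrix.toLin'_apply', ← Matrix.trace_toLin'_eq]

omit [DecidableEq n] in
/-- The rank of the reduction is at most the rank. -/
theorem finrank_range_map_le {k : Type*} [Field k] (φ : ℤ_[l] →+* k) (E : Matrix n n ℤ_[l]) :
    Module.finrank k (LinearMap.range (E.map φ).mulVecLin) ≤
      Module.finrank ℚ_[l] (LinearMap.range (E.map ((↑) : ℤ_[l] → ℚ_[l])).mulVecLin) := by
  let P := LinearMap.range E.mulVecLin
  let b := Module.finBasisOfFinrankEq ℤ_[l] P rfl
  have h1 : Module.finrank k (LinearMap.range (E.map φ).mulVecLin) ≤ Module.finrank ℤ_[l] P := by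
    have hle : LinearMap.range (E.map φ).mulVecLin ≤
        Submodule.span k (Set.range fun i => φ ∘ (b i : n → ℤ_[l])) := by
      rw [Matrix.range_mulVecLin, Submodule.span_le]
      rintro _ ⟨j, rfl⟩
      have hc : E.col j ∈ P := by
        show E.col j ∈ LinearMap.range E.mulVecLin
        rw [Matrix.range_mulVecLin]; exact Submodule.subset_span ⟨j, rfl⟩
      have h := congrArg Subtype.val (b.sum_repr ⟨E.col j, hc⟩)
      have e : (E.map φ).col j = ∑ i, φ (b.repr ⟨E.col j, hc⟩ i) • (φ ∘ (b i : n → ℤ_[l])) := by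
        funext x
        have hx := congrArg φ (congrFun h x)
        simp only [AddSubmonoidClass.coe_finsetSum, SetLike.val_smul, Finset.sum_apply,
          Pi.smul_apply, smul_eq_mul, map_sum, map_mul] at hx
        simp only [Finset.sum_apply, Pi.smul_apply, smul_eq_mul, Function.comp_apply]
        exact hx.symm
      rw [SetLike.mem_coe, e]
      exact Submodule.sum_mem _ fun i _ => Submodule.smul_mem _ _ (Submodule.subset_span ⟨i, rfl⟩)
    refine (Submodule.finrank_mono hle).trans ((finrank_range_le_card _).trans ?_)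
    rw [Fintype.card_fin]
  refine h1.trans ?_
  have hli : LinearIndependent ℤ_[l] fun i => fun x => (((b i : n → ℤ_[l]) x : ℤ_[l]) : ℚ_[l]) := by
    have hb := b.linearIndependent.map' P.subtype (Submodule.ker_subtype _)
    exact hb.map' (LinearMap.pi fun x => (Algebra.linearMap ℤ_[l] ℚ_[l]).comp (LinearMap.proj x))
      (LinearMap.ker_eq_bot.mpr fun u v huv => funext fun x =>
        Subtype.ext (congrFun huv x))
  have hliK : LinearIndependent ℚ_[l] fun i => fun x =>
      (((b i : n → ℤ_[l]) x : ℤ_[l]) : ℚ_[l]) :=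
    (LinearIndependent.iff_fractionRing ℤ_[l] ℚ_[l]).mp hli
  have hmem : ∀ i, (fun x => (((b i : n → ℤ_[l]) x : ℤ_[l]) : ℚ_[l])) ∈
      LinearMap.range (E.map ((↑) : ℤ_[l] → ℚ_[l])).mulVecLin := fun i => by
    obtain ⟨y, hy⟩ := (b i).2
    refine ⟨fun x => (y x : ℚ_[l]), funext fun x => ?_⟩
    rw [← hy]
    exact ((PadicInt.Coe.ringHom).map_mulVec E y x).symm
  have hli2 : LinearIndependent ℚ_[l] fun i =>
      (⟨_, hmem i⟩ : LinearMap.range (E.map ((↑) : ℤ_[l] → ℚ_[l])).mulVecLin) :=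
    LinearIndependent.of_comp (LinearMap.range _).subtype hliK
  simpa using hli2.fintype_card_le_finrank

/-- A separated module is spanned by lifts of generators modulo `l`. -/
theorem exists_eq_sum_of_mod {ι Z : Type*} [Fintype ι] [AddCommGroup Z] [Module ℤ_[l] Z]
    (hsep : ∀ z : Z, (∀ k : ℕ, ∃ w, z = (l : ℤ_[l]) ^ k • w) → z = 0) (b : ι → Z)
    (h : ∀ z : Z, ∃ c : ι → ℤ_[l], ∃ w, z = ∑ i, c i • b i + (l : ℤ_[l]) • w) (z : Z) :
    ∃ c : ι → ℤ_[l], z = ∑ i, c i • b i := by
  choose c w hcw using h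
  let s : ℕ → (ι → ℤ_[l]) × Z := Nat.rec (0, z)
    fun k p => (p.1 + (l : ℤ_[l]) ^ k • c p.2, w p.2)
  have hs : ∀ k, z = ∑ i, (s k).1 i • b i + (l : ℤ_[l]) ^ k • (s k).2 := by
    intro k
    induction k with
    | zero => simp [s]
    | succ k ih =>
      conv_lhs => rw [ih, hcw (s k).2]
      simp only [s, Pi.add_apply, Pi.smul_apply, smul_eq_mul, add_smul, mul_smul,
        Finset.sum_add_distrib, ← Finset.smul_sum, smul_add, pow_succ]
      abel
  choose C hC using fun i => GalRep.exists_toZModPow_eq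
    (fun k => PadicInt.toZModPow k ((s k).1 i)) fun k => by
      rw [← RingHom.comp_apply, PadicInt.zmod_cast_comp_toZModPow k (k + 1) k.le_succ]
      simp only [s, Pi.add_apply, Pi.smul_apply, smul_eq_mul, map_add, map_mul, map_pow,
        map_natCast]
      rw [← Nat.cast_pow, ZMod.natCast_self, zero_mul, add_zero]
  refine ⟨C, sub_eq_zero.mp (hsep _ fun k => ?_)⟩
  have hd : ∀ i, (l : ℤ_[l]) ^ k ∣ (s k).1 i - C i := fun i => by
    rw [← Ideal.mem_span_singleton, ← PadicInt.ker_toZModPow, RingHom.mem_ker, map_sub, hC,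
      sub_self]
  choose e he using hd
  refine ⟨∑ i, e i • b i + (s k).2, ?_⟩
  have hz : ∑ i, (s k).1 i • b i - ∑ i, C i • b i = (l : ℤ_[l]) ^ k • ∑ i, e i • b i := by
    simp only [← Finset.sum_sub_distrib, ← sub_smul, he, mul_smul, Finset.smul_sum]
  conv_lhs => rw [hs k]
  rw [smul_add, ← hz]
  abel

/-- The characteristic polynomial of a matrix nilpotent modulo `l` is `1` at `1` modulo `l`. -/
theorem charpoly_eval_one {X : Matrix n n ℤ} {N : ℕ}
    (h : ∀ i j, (l : ℤ) ∣ (X ^ N) i j) : ((X.charpoly.eval 1 : ℤ) : ZMod l) = 1 := by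
  let π := (Int.castRingHom (ZMod l)).mapMatrix (m := n)
  have hnil : IsNilpotent (π X) := ⟨N, by
    rw [← map_pow]
    exact Matrix.ext fun i j => (ZMod.intCast_zmod_eq_zero_iff_dvd _ l).mpr (h i j)⟩
  have h1 := (Matrix.isNilpotent_charpoly_sub_pow_of_isNilpotent hnil).eq_zero
  rw [sub_eq_zero] at h1
  have h2 := congrArg (Polynomial.eval 1) h1
  rw [show π X = X.map (Int.castRingHom (ZMod l)) from rfl, Matrix.charpoly_map,
    Polynomial.eval_one_map, Polynomial.eval_pow, Polynomial.eval_X, one_pow] at h2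
  exact h2

end Fermat.Agent.MazurStep.Finite
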