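import Fermat.Agent.MazurStep.Finite.Tate
import Fermat.Agent.MazurStep.Finite.Limit
import Fermat.Agent.MazurStep.Global.Rank
import Fermat.Agent.MazurStep.Global.Defs
import Fermat.Agent.Reduction.Specialisation
import Fermat.Agent.Semistable.Level
import Fermat.Agent.Gal.Tame
import Fermat.Agent.MordellWeil.Modular

/-!
# Cocycles with values in the Tate piece

A cocycle with values in an idempotent piece of the Tate module which is unramified outside
`{l, p}` and locally a coboundary at `l` is, up to torsion, a coboundary. The cocycles vanishing on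
the inertia at `p` are bounded by the Selmer group of the piece, and their values at a tame
generator at `p` are bounded by the rank inequality.
-/

set_option autoImplicit false

noncomputable section

open Matrix ModularCurve AlgebraicCurve
open scoped nonZeroDivisors

namespace Fermat.Agent.MazurStep.Finite

open Fermat.Agent.GalRep Fermat.Agent.Kummer Fermat.Agent.Cosets

local notation "ℚbar" => AlgebraicClosure ℚ
local notation "Γℚ" => AlgebraicClosure ℚ ≃ₐ[ℚ] AlgebraicClosure ℚ

variable {p l : ℕ} [NeZero p] [Fact l.Prime]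
  (R : Γℚ →* Matrix (Fin (homRank p)) (Fin (homRank p)) ℤ_[l])

/-- A cocycle of finite level modulo every power of `l`. -/
structure IsCocycle (z : Γℚ → Fin (homRank p) → ℤ_[l]) : Prop where
  cocycle : ∀ σ τ, z (σ * τ) = z σ + R σ *ᵥ z τ
  finiteLevel : ∀ n, Global.IsFiniteLevel fun σ => point p l n (z σ)

variable (E : Matrix (Fin (homRank p)) (Fin (homRank p)) ℤ_[l]) (Al : ValuationSubring ℚbar)

/-- A cocycle in the piece cut out by `E`, unramified outside `{l, p}`, locally trivial at `l`. -/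
structure IsTateSelmer (z : Γℚ → Fin (homRank p) → ℤ_[l]) : Prop extends IsCocycle R z where
  mem : ∀ σ, E *ᵥ z σ = z σ
  unramified : ∀ q : ℕ, q.Prime → q ≠ l → q ≠ p → ∀ A : ValuationSubring ℚbar, A.LiesOverPrime q →
    ∀ σ ∈ A.inertiaSubgroupIn ℚ, z σ = 0
  atL : ∀ n, ∃ y : JZero p, ∀ σ ∈ Al.inertiaSubgroupIn ℚ, point p l n (z σ) = σ • y - y

/-- The module of these cocycles. -/
def tateSelmer : Submodule ℤ_[l] (Γℚ → Fin (homRank p) → ℤ_[l]) where
  carrier := {z | IsTateSelmer R E Al z}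
  zero_mem' :=
    { cocycle := fun σ τ => by simp
      finiteLevel := fun n => ⟨⊥, inferInstance, fun _ _ _ => rfl⟩
      mem := fun σ => Matrix.mulVec_zero E
      unramified := fun _ _ _ _ _ _ _ _ => rfl
      atL := fun n => ⟨0, fun σ _ => by simp [galois_zero]⟩ }
  add_mem' {z z'} h h' :=
    { cocycle := fun σ τ => by
        simp only [Pi.add_apply, h.cocycle, h'.cocycle, Matrix.mulVec_add]; abel
      finiteLevel := fun n => by
        obtain ⟨L, hL, hz⟩ := h.finiteLevel n
        obtain ⟨L', hL', hz'⟩ := h'.finiteLevel n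
        refine ⟨L ⊔ L', inferInstance, fun σ τ e => ?_⟩
        have e1 : point p l n (z σ) = point p l n (z τ) :=
          hz σ τ fun x hx => e x (le_sup_left (a := L) hx)
        have e2 : point p l n (z' σ) = point p l n (z' τ) :=
          hz' σ τ fun x hx => e x (le_sup_right (b := L') hx)
        simp only [Pi.add_apply, map_add, e1, e2]
      mem := fun σ => by rw [Pi.add_apply, Matrix.mulVec_add, h.mem, h'.mem]
      unramified := fun q hq h1 h2 A hA σ hσ => by
        rw [Pi.add_apply, h.unramified q hq h1 h2 A hA σ hσ, h'.unramified q hq h1 h2 A hA σ hσ,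
          add_zero]
      atL := fun n => by
        obtain ⟨y, hy⟩ := h.atL n
        obtain ⟨y', hy'⟩ := h'.atL n
        exact ⟨y + y', fun σ hσ => by
          rw [Pi.add_apply, map_add, hy σ hσ, hy' σ hσ, smul_add]; abel⟩ }
  smul_mem' a z h :=
    { cocycle := fun σ τ => by
        simp only [Pi.smul_apply, h.cocycle, smul_add, Matrix.mulVec_smul]
      finiteLevel := fun n => by
        obtain ⟨L, hL, hz⟩ := h.finiteLevel n
        refine ⟨L, hL, fun σ τ e => ?_⟩
        have e1 : point p l n (z σ) = point p l n (z τ) := hz σ τ e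
        simp only [Pi.smul_apply, point_smul, e1]
      mem := fun σ => by rw [Pi.smul_apply, Matrix.mulVec_smul, h.mem]
      unramified := fun q hq h1 h2 A hA σ hσ => by
        rw [Pi.smul_apply, h.unramified q hq h1 h2 A hA σ hσ, smul_zero]
      atL := fun n => by
        obtain ⟨y, hy⟩ := h.atL n
        exact ⟨(PadicInt.toZModPow n a).val • y, fun σ hσ => by
          rw [Pi.smul_apply, point_smul, hy σ hσ, nsmul_sub, galois_nsmul]⟩ }

/-- The coboundary. -/
def coboundary : (Fin (homRank p) → ℤ_[l]) →ₗ[ℤ_[l]] Γℚ → Fin (homRank p) → ℤ_[l] :=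
  LinearMap.pi fun σ => (R σ).mulVecLin - LinearMap.id

theorem coboundary_apply (v : Fin (homRank p) → ℤ_[l]) (σ : Γℚ) :
    coboundary R v σ = R σ *ᵥ v - v := rfl

variable {R} {E} {Al}

theorem IsCocycle.map_one {z : Γℚ → Fin (homRank p) → ℤ_[l]} (hz : IsCocycle R z) : z 1 = 0 := by
  have h := hz.cocycle 1 1
  rw [one_mul, _root_.map_one, Matrix.one_mulVec] at h
  exact add_eq_left.mp h.symm

theorem IsCocycle.zero : IsCocycle R (0 : Γℚ → Fin (homRank p) → ℤ_[l]) :=
  ⟨fun σ τ => by simp, fun n => ⟨⊥, inferInstance, fun _ _ _ => rfl⟩⟩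

/-! ### Finite levels -/

theorem exists_level (n : ℕ) : ∃ L : IntermediateField ℚ ℚbar, FiniteDimensional ℚ L ∧
    (∀ σ : Γℚ, (∀ x ∈ L, σ x = x) → torsRho p (l ^ n) σ = 1) ∧
    ∀ σ τ : Γℚ, (∀ x ∈ L, σ x = τ x) → ∀ v, σ • point p l n v = τ • point p l n v := by
  obtain ⟨L, hL, h⟩ := torsion_finiteLevel p (l ^ n)
  refine ⟨L, hL, fun σ hσ => ?_, fun σ τ hστ v => ?_⟩
  · refine Matrix.ext_of_mulVec_single fun i => ?_
    obtain ⟨x, hx⟩ := (torsCoord p (l ^ n)).surjective (Pi.single i 1)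
    rw [← hx, torsRho_mulVec, h σ hσ, Matrix.one_mulVec]
    rfl
  · have h1 : (σ⁻¹ * τ) • point p l n v = point p l n v := by
      have h2 := JZero.coe_torsionGaloisRep_apply p (σ⁻¹ * τ)
        (⟨_, point_mem n v⟩ : Tors p (l ^ n))
      rw [h (σ⁻¹ * τ) fun x hx => by
        rw [AlgEquiv.mul_apply, ← hστ x hx]; exact σ.symm_apply_apply x] at h2
      exact h2.symm
    rw [mul_smul, inv_smul_eq_iff] at h1
    exact h1.symm

/-- Coboundaries of the piece. -/
theorem isTateSelmer_coboundary (hp : p.Prime)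
    (hR : ∀ n σ, (R σ).map (PadicInt.toZModPow n) = torsRho p (l ^ n) σ)
    (hcomm : ∀ σ, R σ * E = E * R σ) {v : Fin (homRank p) → ℤ_[l]} (hv : E *ᵥ v = v) :
    IsTateSelmer R E Al (coboundary R v) where
  cocycle σ τ := by
    simp only [coboundary_apply, map_mul, Matrix.mulVec_sub, Matrix.mulVec_mulVec]; abel
  finiteLevel n := by
    obtain ⟨L, hL, -, h⟩ := exists_level (p := p) (l := l) n
    refine ⟨L, hL, fun σ τ hστ => ?_⟩
    simp only [coboundary_apply, map_sub, ← smul_point R hR, h σ τ hστ]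
  mem σ := by
    rw [coboundary_apply, Matrix.mulVec_sub, hv, Matrix.mulVec_mulVec, ← hcomm,
      ← Matrix.mulVec_mulVec, hv]
  unramified q hq h1 h2 A hA σ hσ := by
    refine eq_zero_of_point fun n => ?_
    rw [coboundary_apply, map_sub, ← smul_point R hR, sub_eq_zero]
    have hnd : ¬ q ∣ p * l := fun h => by
      rcases hq.dvd_mul.mp h with h | h
      · exact h2 ((Nat.prime_dvd_prime_iff_eq hq hp).mp h)
      · exact h1 ((Nat.prime_dvd_prime_iff_eq hq Fact.out).mp h)
    exact (Reduction.torsionReduction p l q hq hnd A hA).1 σ hσ _ ⟨n, pow_nsmul_point n v⟩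
  atL n := ⟨point p l n v, fun σ _ => by rw [coboundary_apply, map_sub, ← smul_point R hR]⟩

/-- Rational torsion has bounded order. -/
theorem exists_fixed_exponent : ∃ N : ℕ, 0 < N ∧
    ∀ x : JZero p, (∀ σ : Γℚ, σ • x = x) → IsOfFinAddOrder x → N • x = 0 := by
  classical
  let M := FixedPoints.addSubgroup Γℚ (JZero p)
  have : Module.Finite ℤ M :=
    Module.Finite.iff_addGroup_fg.mpr (MW.fg_fixedPoints_jZero p)
  obtain ⟨s, hs⟩ := IsNoetherian.noetherian (AddSubgroup.toIntSubmodule (AddCommGroup.torsion M))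
  have hpos : ∀ x ∈ s, 0 < addOrderOf (x : M) := fun x hx => by
    have : x ∈ AddSubgroup.toIntSubmodule (AddCommGroup.torsion M) :=
      hs ▸ Submodule.subset_span hx
    exact IsOfFinAddOrder.addOrderOf_pos this
  refine ⟨∏ x ∈ s, addOrderOf x, Finset.prod_pos hpos, fun x hx hfin => ?_⟩
  have hmem : (⟨x, hx⟩ : M) ∈ Submodule.span ℤ (s : Set M) := by
    rw [hs]
    exact AddSubmonoid.isOfFinAddOrder_coe.mp hfin
  have key : ∀ y ∈ Submodule.span ℤ (s : Set M), (∏ x ∈ s, addOrderOf x) • y = 0 := by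
    intro y hy
    induction hy using Submodule.span_induction with
    | mem y hy =>
      exact addOrderOf_dvd_iff_nsmul_eq_zero.mp (Finset.dvd_prod_of_mem _ hy)
    | zero => exact nsmul_zero _
    | add a b _ _ ha hb => rw [nsmul_add, ha, hb, add_zero]
    | smul c a _ ha => rw [smul_comm, ha, smul_zero]
  exact congrArg Subtype.val (key _ hmem)

/-- A vector fixed by Galois vanishes. -/
theorem eq_zero_of_coboundary (hR : ∀ n σ, (R σ).map (PadicInt.toZModPow n) = torsRho p (l ^ n) σ)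
    {v : Fin (homRank p) → ℤ_[l]} (h : coboundary R v = 0) : v = 0 := by
  obtain ⟨N, hN, hkill⟩ := exists_fixed_exponent (p := p)
  obtain ⟨k, u, hu, rfl⟩ := Nat.exists_eq_pow_mul_and_not_dvd hN.ne' l (Fact.out : l.Prime).ne_one
  refine eq_zero_of_point fun n => ?_
  have hx : ∀ m, ∀ σ : Γℚ, σ • point p l m v = point p l m v := fun m σ => by
    rw [smul_point R hR, ← sub_eq_zero, ← map_sub, ← coboundary_apply, congrFun h σ, Pi.zero_apply,
      map_zero]
  have hfin : ∀ m, IsOfFinAddOrder (point p l m v) := fun m =>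
    isOfFinAddOrder_iff_nsmul_eq_zero.mpr
      ⟨l ^ m, pow_pos (Fact.out : l.Prime).pos m, pow_nsmul_point m v⟩
  have hcop : Nat.Coprime u (l ^ (n + k)) :=
    (Nat.Coprime.pow_left _ ((Nat.Prime.coprime_iff_not_dvd Fact.out).mpr hu)).symm
  have h1 : l ^ k • point p l (n + k) v = 0 := by
    have h2 : u • (l ^ k • point p l (n + k) v) = 0 := by
      rw [smul_smul, mul_comm, hkill _ (hx _) (hfin _)]
    have h3 : l ^ (n + k) • (l ^ k • point p l (n + k) v) = 0 := by
      rw [smul_comm, pow_nsmul_point, nsmul_zero]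
    have := Nat.dvd_gcd (addOrderOf_dvd_iff_nsmul_eq_zero.mpr h2)
      (addOrderOf_dvd_iff_nsmul_eq_zero.mpr h3)
    rw [hcop.gcd_eq_one, Nat.dvd_one, AddMonoid.addOrderOf_eq_one_iff] at this
    exact this
  have h4 : ∀ j, l ^ j • point p l (n + j) v = point p l n v := by
    intro j
    induction j with
    | zero => simp
    | succ j ih => rw [pow_succ, mul_smul, ← add_assoc, nsmul_point_succ, ih]
  rw [← h4 k, h1]

/-! ### The affine action -/

theorem one_add_pow {A : Type*} [Ring A] {M : A} (hM : M * M * M = 0) (j : ℕ) :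
    (1 + M) ^ j = 1 + j • M + j.choose 2 • (M * M) := by
  induction j with
  | zero => simp
  | succ j ih =>
    rw [pow_succ, ih, Nat.choose_succ_succ, Nat.choose_one_right, add_nsmul, add_nsmul, one_nsmul]
    simp only [add_mul, mul_add, one_mul, mul_one, smul_mul_assoc, hM, nsmul_zero, add_zero]
    abel

/-- The affine action attached to a cocycle. -/
def aff {z : Γℚ → Fin (homRank p) → ℤ_[l]} (hz : IsCocycle R z) :
    Γℚ →* Matrix (Fin (homRank p) ⊕ Unit) (Fin (homRank p) ⊕ Unit) ℤ_[l] where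
  toFun σ := fromBlocks (R σ) (replicateCol Unit (z σ)) 0 1
  map_one' := by rw [_root_.map_one, hz.map_one, replicateCol_zero, fromBlocks_one]
  map_mul' σ τ := by
    rw [fromBlocks_multiply, map_mul, hz.cocycle, replicateCol_add, replicateCol_mulVec]
    simp [add_comm]

variable {z : Γℚ → Fin (homRank p) → ℤ_[l]}

theorem aff_apply (hz : IsCocycle R z) (σ : Γℚ) :
    aff hz σ = fromBlocks (R σ) (replicateCol Unit (z σ)) 0 1 := rfl

theorem aff_sub_one (hz : IsCocycle R z) (σ : Γℚ) :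
    aff hz σ - 1 = fromBlocks (R σ - 1) (replicateCol Unit (z σ)) 0 0 := by
  rw [aff_apply, ← fromBlocks_one, sub_eq_add_neg, fromBlocks_neg, fromBlocks_add]
  simp [sub_eq_add_neg]

theorem aff_pow (hz : IsCocycle R z) {σ : Γℚ} (h2 : (R σ - 1) * (R σ - 1) = 0) (j : ℕ) :
    aff hz σ ^ j = fromBlocks (1 + j • (R σ - 1))
      (replicateCol Unit (j • z σ + j.choose 2 • ((R σ - 1) *ᵥ z σ))) 0 1 := by
  set M := aff hz σ - 1 with hM
  have hMM : M * M = fromBlocks 0 (replicateCol Unit ((R σ - 1) *ᵥ z σ)) 0 0 := by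
    rw [hM, aff_sub_one, fromBlocks_multiply, replicateCol_mulVec, h2]
    simp
  have h3 : M * M * M = 0 := by
    rw [hMM, hM, aff_sub_one, fromBlocks_multiply]
    simp [← fromBlocks_zero]
  rw [show aff hz σ = 1 + M by rw [hM]; abel, one_add_pow h3, hMM, hM, aff_sub_one,
    ← fromBlocks_one, fromBlocks_smul, fromBlocks_smul, fromBlocks_add, fromBlocks_add,
    replicateCol_add, replicateCol_smul, replicateCol_smul]
  simp

theorem sq_inertia (hp : p.Prime) (hlp : l ≠ p)
    (hR : ∀ n σ, (R σ).map (PadicInt.toZModPow n) = torsRho p (l ^ n) σ)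
    {Ap : ValuationSubring ℚbar} (hAp : Ap.LiesOverPrime p) {σ : Γℚ}
    (hσ : σ ∈ Ap.inertiaSubgroupIn ℚ) : (R σ - 1) * (R σ - 1) = 0 := by
  refine Matrix.ext_of_mulVec_single fun i => ?_
  rw [Matrix.zero_mulVec]
  refine eq_zero_of_point fun n => ?_
  have hl : l.Prime := Fact.out
  have hx := Semistable.inertia_smul_sub_smul_sub hp dvd_rfl
    (fun h => by
      have := Nat.le_of_dvd hp.pos h
      nlinarith [hp.two_le])
    (pow_pos hl.pos n)
    (fun h => hlp ((Nat.prime_dvd_prime_iff_eq hp hl).mp (hp.dvd_of_dvd_pow h)).symm) hAp hσ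
    (pow_nsmul_point n (Pi.single i (1 : ℤ_[l])))
  simp only [← Matrix.mulVec_mulVec, Matrix.sub_mulVec, Matrix.one_mulVec, map_sub,
    Matrix.mulVec_sub, ← smul_point R hR]
  rw [smul_sub] at hx
  rw [hx, sub_self]

/-- A tame generator at `p`, uniformly in the cocycle. -/
structure TameData (R : Γℚ →* Matrix (Fin (homRank p)) (Fin (homRank p)) ℤ_[l])
    (Ap : ValuationSubring ℚbar) (τ φ : Γℚ) : Prop where
  sq : (R τ - 1) * (R τ - 1) = 0
  cycl_frob : cycl l φ = (p : ℤ_[l])
  rel : ∀ (z : Γℚ → Fin (homRank p) → ℤ_[l]) (hz : IsCocycle R z),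
    aff hz φ * aff hz τ = aff hz τ ^ p * aff hz φ
  gen : ∀ (z : Γℚ → Fin (homRank p) → ℤ_[l]), IsCocycle R z → z τ = 0 →
    ∀ σ ∈ Ap.inertiaSubgroupIn ℚ, z σ = 0

/-- Tame inertia data at `p` exist. -/
theorem exists_tameData (hp : p.Prime) (hlp : l ≠ p)
    (hR : ∀ n σ, (R σ).map (PadicInt.toZModPow n) = torsRho p (l ^ n) σ)
    {Ap : ValuationSubring ℚbar} (hAp : Ap.LiesOverPrime p) :
    ∃ τ φ, TameData R Ap τ φ := by
  have hl : l.Prime := Fact.out
  obtain ⟨τ, hτ, htame⟩ := Gal.Tame.exists_tame_generator.{0} hp hl hlp.symm hAp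
  obtain ⟨φ, hφ⟩ := Gal.exists_isFrobeniusAt hp hAp
  let π := fun n => (PadicInt.toZModPow (p := l) n).mapMatrix (m := Fin (homRank p) ⊕ Unit)
  have hboth : ∀ (z : Γℚ → Fin (homRank p) → ℤ_[l]) (hz : IsCocycle R z) (n : ℕ),
      (∀ σ ∈ Ap.inertiaSubgroupIn ℚ, ∃ k, π n (aff hz σ) = π n (aff hz τ) ^ k) ∧
        π n (aff hz φ * aff hz τ) = π n (aff hz τ ^ p * aff hz φ) := by
    intro z hz n
    let ρ := ((π n).toMonoidHom.comp (aff hz)).toHomUnits
    have hρ : ∀ σ, (ρ σ : Matrix _ _ (ZMod (l ^ n))) = π n (aff hz σ) := fun σ => rfl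
    have hlevel : ∃ F : IntermediateField ℚ ℚbar, FiniteDimensional ℚ F ∧
        ∀ σ : Γℚ, (∀ x ∈ F, σ x = x) → ρ σ = 1 := by
      obtain ⟨L, hL, h1, -⟩ := exists_level (p := p) (l := l) n
      obtain ⟨L', hL', h2⟩ := hz.finiteLevel n
      refine ⟨L ⊔ L', inferInstance, fun σ hσ => Units.ext ?_⟩
      have e1 := h1 σ fun x hx => hσ x (le_sup_left (a := L) hx)
      have e2 : point p l n (z σ) = point p l n (z 1) :=
        h2 σ 1 fun x hx => hσ x (le_sup_right (b := L') hx)
      rw [hz.map_one, map_zero] at e2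
      have e3 : ∀ i, PadicInt.toZModPow n (z σ i) = 0 := fun i => by
        have h := torsCoord_point n (z σ)
        rw [show (⟨point p l n (z σ), point_mem n (z σ)⟩ : Tors p (l ^ n)) = 0 from
          Subtype.ext e2, map_zero] at h
        exact (congrFun h i).symm
      rw [hρ, aff_apply]
      show (fromBlocks (R σ) _ 0 1).map (PadicInt.toZModPow n) = _
      rw [fromBlocks_map, hR, e1, Matrix.map_zero _ (map_zero _),
        Matrix.map_one _ (map_zero _) (map_one _)]
      conv_rhs => rw [Units.val_one, ← fromBlocks_one]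
      congr 1
      exact Matrix.ext fun i _ => e3 i
    have hord : ∀ σ ∈ Ap.inertiaSubgroupIn ℚ, ∃ k : ℕ, ρ σ ^ l ^ k = 1 := by
      intro σ hσ
      refine ⟨n + 1, Units.ext ?_⟩
      rw [Units.val_pow_eq_pow_val, hρ, ← map_pow, aff_pow hz (sq_inertia hp hlp hR hAp hσ),
        Units.val_one]
      have c1 : ((l ^ (n + 1) : ℕ) : ZMod (l ^ n)) = 0 :=
        (ZMod.natCast_eq_zero_iff _ _).mpr (pow_dvd_pow l n.le_succ)
      have c2 : (((l ^ (n + 1)).choose 2 : ℕ) : ZMod (l ^ n)) = 0 := by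
        refine (ZMod.natCast_eq_zero_iff _ _).mpr ?_
        have h2 : l ^ (n + 1) ∣ (l ^ (n + 1)).choose 2 * 2 := by
          rw [Nat.choose_two_right, Nat.div_mul_cancel (Nat.even_mul_pred_self _).two_dvd]
          exact dvd_mul_right _ _
        rcases hl.eq_two_or_odd' with rfl | hodd
        · rw [pow_succ] at h2
          exact Nat.dvd_of_mul_dvd_mul_right two_pos h2
        · exact (pow_dvd_pow l n.le_succ).trans
            ((Nat.Coprime.pow_left _ (Nat.coprime_two_right.mpr hodd)).dvd_of_dvd_mul_right h2)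
      show (fromBlocks _ _ 0 1).map (PadicInt.toZModPow n) = _
      rw [fromBlocks_map, Matrix.map_zero _ (map_zero _),
        Matrix.map_one _ (map_zero _) (map_one _), ← fromBlocks_one]
      congr 1
      · refine Matrix.ext fun i j => ?_
        simp only [Matrix.map_apply, Matrix.add_apply, Matrix.smul_apply, map_add, map_nsmul]
        simp only [nsmul_eq_mul, c1, zero_mul, add_zero]
        rw [Matrix.one_apply, Matrix.one_apply, apply_ite (PadicInt.toZModPow n), map_one, map_zero]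
      · refine Matrix.ext fun i j => ?_
        simp only [Matrix.map_apply, replicateCol_apply, Pi.add_apply, Pi.smul_apply, map_add,
          map_nsmul]
        simp only [nsmul_eq_mul, c1, c2, zero_mul, add_zero, Matrix.zero_apply]
    obtain ⟨hgen, hconj⟩ := htame ρ hlevel hord
    refine ⟨fun σ hσ => ?_, ?_⟩
    · obtain ⟨k, hk⟩ := hgen σ hσ
      exact ⟨k, congrArg Units.val hk⟩
    · have h := congrArg Units.val (mul_inv_eq_iff_eq_mul.mp (hconj φ hφ))
      rw [Units.val_mul, Units.val_mul, Units.val_pow_eq_pow_val, hρ, hρ] at h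
      rw [map_mul, map_mul, map_pow]
      exact h
  refine ⟨τ, φ, sq_inertia hp hlp hR hAp hτ, cycl_frobenius (p := l) hp hlp.symm hAp hφ,
    fun z hz => ?_, fun z hz hzτ σ hσ => ?_⟩
  · exact Matrix.ext fun i j => PadicInt.ext_of_toZModPow.mp fun n =>
      congrFun (congrFun (hboth z hz n).2 i) j
  · refine funext fun i => PadicInt.ext_of_toZModPow.mp fun n => ?_
    obtain ⟨k, hk⟩ := (hboth z hz n).1 σ hσ
    rw [← map_pow, aff_pow hz (sq_inertia hp hlp hR hAp hτ), hzτ, aff_apply] at hk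
    have h := congrFun (congrFun hk (Sum.inl i)) (Sum.inr ())
    simpa [π] using h

/-- The relation at `p`. -/
theorem TameData.apply_rel {Ap : ValuationSubring ℚbar} {τ φ : Γℚ} (ht : TameData R Ap τ φ)
    (hz : IsCocycle R z) :
    R φ *ᵥ z τ - (p : ℤ_[l]) • z τ = (R τ - 1) *ᵥ (p • z φ + p.choose 2 • z τ) := by
  have h := ht.rel z hz
  rw [aff_pow hz ht.sq, aff_apply, aff_apply, fromBlocks_multiply, fromBlocks_multiply] at h
  have h2 := congrArg toBlocks₁₂ h
  simp only [toBlocks_fromBlocks₁₂, Matrix.mul_one, ← replicateCol_mulVec, ← replicateCol_add,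
    replicateCol_inj] at h2
  rw [Matrix.add_mulVec, Matrix.one_mulVec, Matrix.smul_mulVec] at h2
  rw [Matrix.mulVec_add, Matrix.mulVec_smul, Matrix.mulVec_smul, Nat.cast_smul_eq_nsmul,
    eq_sub_of_add_eq h2]
  abel

theorem TameData.conj {Ap : ValuationSubring ℚbar} {τ φ : Γℚ} (ht : TameData R Ap τ φ) :
    R φ * R τ = R τ ^ p * R φ := by
  have h := congrArg toBlocks₁₁ (ht.rel 0 IsCocycle.zero)
  rw [aff_pow _ ht.sq, aff_apply, aff_apply, fromBlocks_multiply, fromBlocks_multiply,
    toBlocks_fromBlocks₁₁, toBlocks_fromBlocks₁₁] at h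
  have hp' : R τ ^ p = 1 + p • (R τ - 1) := by
    have := one_add_pow (M := R τ - 1) (by rw [ht.sq, zero_mul]) p
    rwa [ht.sq, nsmul_zero, add_zero, add_sub_cancel] at this
  simpa [hp'] using h

/-! ### The rank count -/

theorem finrank_map_add_inf_ker {K V W : Type*} [Field K] [AddCommGroup V] [Module K V]
    [AddCommGroup W] [Module K W] [FiniteDimensional K V] (f : V →ₗ[K] W) (S : Submodule K V) :
    Module.finrank K ↥(S.map f) + Module.finrank K ↥(S ⊓ LinearMap.ker f) =
      Module.finrank K S := by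
  rw [← LinearMap.finrank_range_add_finrank_ker (f.domRestrict S), LinearMap.range_domRestrict,
    LinearMap.ker_domRestrict]
  congr 1
  exact (Submodule.comapSubtypeEquivOfLe (p := S ⊓ LinearMap.ker f) (q := S)
    inf_le_left).finrank_eq.symm.trans (by rw [Submodule.comap_inf, Submodule.comap_subtype_self,
      top_inf_eq])

/-- The dimension of a preimage. -/
theorem finrank_preimage {K V : Type*} [Field K] [AddCommGroup V] [Module K V]
    [FiniteDimensional K V] (S : Submodule K V) (N G : V →ₗ[K] V) :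
    Module.finrank K ↥(S ⊓ (S.map N).comap G) + Module.finrank K ↥(S.map N ⊔ S.map G) +
      Module.finrank K ↥(S ⊓ LinearMap.ker N) = 2 * Module.finrank K S := by
  have h1 := finrank_map_add_inf_ker ((S.map N).mkQ.comp G) S
  have h2 := finrank_map_add_inf_ker (S.map N).mkQ (S.map N ⊔ S.map G)
  have h3 := finrank_map_add_inf_ker N S
  rw [LinearMap.ker_comp, Submodule.ker_mkQ] at h1
  rw [Submodule.ker_mkQ, inf_eq_right.mpr le_sup_left] at h2
  have e : S.map ((S.map N).mkQ.comp G) = (S.map N ⊔ S.map G).map (S.map N).mkQ := by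
    rw [Submodule.map_sup, Submodule.mkQ_map_self, bot_sup_eq, Submodule.map_comp]
  rw [e] at h1
  omega

/-- Coercion of Tate vectors. -/
def coeVec : (Fin (homRank p) → ℤ_[l]) →ₗ[ℤ_[l]] (Fin (homRank p) → ℚ_[l]) :=
  (Algebra.linearMap ℤ_[l] ℚ_[l]).compLeft (Fin (homRank p))

theorem coeVec_apply (v : Fin (homRank p) → ℤ_[l]) (i : Fin (homRank p)) :
    coeVec v i = (v i : ℚ_[l]) := rfl

theorem coeVec_injective : Function.Injective (coeVec (p := p) (l := l)) := fun _ _ h =>
  funext fun i => PadicInt.ext (congrFun h i)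

theorem coeVec_mulVec (M : Matrix (Fin (homRank p)) (Fin (homRank p)) ℤ_[l])
    (v : Fin (homRank p) → ℤ_[l]) :
    coeVec (M *ᵥ v) = M.map ((↑) : ℤ_[l] → ℚ_[l]) *ᵥ coeVec v :=
  funext fun i => PadicInt.Coe.ringHom.map_mulVec M v i

variable (R E Al) in
/-- Evaluation at `τ`. -/
def evalAt (τ : Γℚ) : tateSelmer R E Al →ₗ[ℤ_[l]] (Fin (homRank p) → ℚ_[l]) :=
  coeVec.comp ((LinearMap.proj τ).comp (tateSelmer R E Al).subtype)

theorem rank_range_evalAt_le {Ap : ValuationSubring ℚbar} (hp : p.Prime)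
    (hR : ∀ n σ, (R σ).map (PadicInt.toZModPow n) = torsRho p (l ^ n) σ) (hE : E * E = E)
    (hadj : E.map ((↑) : ℤ_[l] → ℚ_[l]) ∈
      Algebra.adjoin ℚ_[l] (Set.range fun q => (heckeMat p q).map (Int.cast : ℤ → ℚ_[l])))
    {τ φ : Γℚ} (ht : TameData R Ap τ φ) :
    ∃ u : ℕ, 2 * u ≤ Module.finrank ℚ_[l]
        (LinearMap.range (E.map ((↑) : ℤ_[l] → ℚ_[l])).mulVecLin) ∧
      Module.rank ℤ_[l] (LinearMap.range (evalAt R E Al τ)) ≤ u := by
  set EK := E.map ((↑) : ℤ_[l] → ℚ_[l]) with hEK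
  set V := LinearMap.range (toLin' EK) with hV
  set N := toLin' ((R τ - 1).map ((↑) : ℤ_[l] → ℚ_[l]))
  set G := toLin' ((R φ).map ((↑) : ℤ_[l] → ℚ_[l]) - (p : ℚ_[l]) • 1)
  have hineq := Global.three_mul_le_finrank hp (Reduction.torsionReduction p l) R hR τ φ
    (by rw [sq, ht.sq]) ht.conj ht.cycl_frob EK hadj
    (show EK * EK = EK by
      show PadicInt.Coe.ringHom.mapMatrix E * PadicInt.Coe.ringHom.mapMatrix E = _
      rw [← map_mul, hE]; rfl)
  set U := V ⊓ (V.map N).comap G
  have hdim : Module.finrank ℚ_[l] U + Module.finrank ℚ_[l] ↥(V.map N ⊔ V.map G) +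
      Module.finrank ℚ_[l] ↥(V ⊓ LinearMap.ker N) = 2 * Module.finrank ℚ_[l] V :=
    finrank_preimage V N G
  refine ⟨Module.finrank ℚ_[l] U, ?_, ?_⟩
  · change 2 * _ ≤ Module.finrank ℚ_[l] V
    change 3 * Module.finrank ℚ_[l] V ≤ 2 * (Module.finrank ℚ_[l] ↥(V ⊓ LinearMap.ker N) +
      Module.finrank ℚ_[l] ↥(V.map N ⊔ V.map G)) at hineq
    omega
  · have hle : LinearMap.range (evalAt R E Al τ) ≤ U.restrictScalars ℤ_[l] := by
      rintro _ ⟨z, rfl⟩
      have hmemV : ∀ σ, coeVec (z.1 σ) ∈ V := fun σ => ⟨coeVec (z.1 σ), by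
        rw [toLin'_apply, hEK, ← coeVec_mulVec, z.2.mem]⟩
      refine ⟨hmemV τ, coeVec (p • z.1 φ + p.choose 2 • z.1 τ), ?_, ?_⟩
      · rw [map_add, map_nsmul, map_nsmul]
        exact add_mem (nsmul_mem (hmemV φ) _) (nsmul_mem (hmemV τ) _)
      · show N _ = G (coeVec (z.1 τ))
        rw [toLin'_apply, ← coeVec_mulVec, ← ht.apply_rel z.2.toIsCocycle, toLin'_apply,
          map_sub, map_smul, coeVec_mulVec, Matrix.sub_mulVec, Matrix.smul_mulVec,
          Matrix.one_mulVec, ← algebraMap_smul ℚ_[l] (p : ℤ_[l]) (coeVec (z.1 τ)), map_natCast]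
    calc Module.rank ℤ_[l] (LinearMap.range (evalAt R E Al τ))
        ≤ Module.rank ℤ_[l] (U.restrictScalars ℤ_[l]) := Submodule.rank_mono hle
      _ = Module.rank ℤ_[l] U := rfl
      _ = Module.rank ℚ_[l] U := (IsLocalization.rank_eq ℚ_[l] (ℤ_[l])⁰ le_rfl).symm
      _ = _ := (Module.finrank_eq_rank ℚ_[l] U).symm

/-- A finite `ZMod l`-space is generated by its dimension many elements. -/
theorem exists_fin_span {V : Type*} [AddCommGroup V] [Module (ZMod l) V] [_root_.Finite V] :
    ∃ (r : ℕ) (e : Fin r → V), Nat.card V = l ^ r ∧ ∀ v, ∃ c : Fin r → ℕ, v = ∑ i, c i • e i := by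
  obtain ⟨r, ⟨bV⟩⟩ : ∃ r, Nonempty (Module.Basis (Fin r) (ZMod l) V) :=
    ⟨_, ⟨(Module.Basis.ofVectorSpace (ZMod l) V).reindex (Fintype.equivFin _)⟩⟩
  refine ⟨r, bV, ?_, fun v => ⟨fun i => (bV.repr v i).val, ?_⟩⟩
  · rw [Nat.card_congr bV.equivFun.toEquiv, Nat.card_fun, Nat.card_zmod, Nat.card_eq_fintype_card,
      Fintype.card_fin]
  · refine (bV.sum_repr v).symm.trans (Finset.sum_congr rfl fun i _ => ?_)
    rw [← Nat.cast_smul_eq_nsmul (ZMod l), ZMod.natCast_zmod_val]

/-- Lifts of generators of an elementary finite image. -/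
theorem exists_generators {A B : Type*} [AddCommGroup A] [AddCommGroup B] [_root_.Finite B]
    (μ : A →+ B) (htor : ∀ a, l • μ a = 0) {g : ℕ} (hcard : Nat.card B ≤ l ^ g) :
    ∃ (r : ℕ) (b : Fin r → A), r ≤ g ∧ ∀ a, ∃ c : Fin r → ℕ, μ a = μ (∑ i, c i • b i) := by
  classical
  obtain ⟨r, e, hr, hspan⟩ := @exists_fin_span l _ μ.range _
    (AddCommGroup.zmodModule (n := l) (by
      rintro ⟨_, a, rfl⟩
      exact Subtype.ext (htor a))) _
  choose b hb using fun i => AddMonoidHom.mem_range.mp (e i).2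
  refine ⟨r, b, ?_, fun a => ?_⟩
  · refine (Nat.pow_le_pow_iff_right (Fact.out : l.Prime).one_lt).mp (le_trans ?_ hcard)
    rw [← hr]
    exact Nat.card_le_card_of_injective _
      (Subtype.val_injective : Function.Injective (Subtype.val : μ.range → B))
  · obtain ⟨c, hc⟩ := hspan ⟨μ a, a, rfl⟩
    have h := congrArg Subtype.val hc
    rw [AddSubgroup.val_finsetSum] at h
    refine ⟨c, h.trans ?_⟩
    rw [map_sum]
    exact Finset.sum_congr rfl fun i _ => by rw [map_nsmul, hb, ← AddSubgroup.coe_nsmul]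

theorem rank_ker_evalAt_le {Ap : ValuationSubring ℚbar} {τ φ : Γℚ} (ht : TameData R Ap τ φ)
    (hR : ∀ n σ, (R σ).map (PadicInt.toZModPow n) = torsRho p (l ^ n) σ)
    {G : AddSubgroup (JZero p)} (hG : ∀ v, E *ᵥ v = v → point p l 1 v ∈ G) {g : ℕ}
    (hsel : _root_.Finite (Global.selmer G l Al Ap) ∧
      Nat.card (Global.selmer G l Al Ap) ≤ l ^ g) :
    Module.rank ℤ_[l] (LinearMap.ker (evalAt R E Al τ)) ≤ g := by
  classical
  have hl : l.Prime := Fact.out
  set K₀ := LinearMap.ker (evalAt R E Al τ)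
  have hIp : ∀ z : K₀, ∀ σ ∈ Ap.inertiaSubgroupIn ℚ, z.1.1 σ = 0 := fun z =>
    ht.gen _ z.1.2.toIsCocycle
      (coeVec_injective ((LinearMap.mem_ker.mp z.2).trans (map_zero _).symm))
  let μ : K₀ →+ Global.selmer G l Al Ap :=
    AddMonoidHom.mk' (fun z => ⟨fun σ => point p l 1 (z.1.1 σ),
      { finiteLevel := z.1.2.finiteLevel 1
        cocycle := fun σ σ' => by rw [z.1.2.cocycle, map_add, smul_point R hR]
        mem := fun σ => hG _ (z.1.2.mem σ)
        unramified := fun q hq h1 h2 A hA σ hσ => by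
          rw [z.1.2.unramified q hq h1 h2 A hA σ hσ, map_zero]
        atP := fun σ hσ => by rw [hIp z σ hσ, map_zero]
        atL := z.1.2.atL 1 }⟩)
      fun a b => Subtype.ext (funext fun σ => map_add (point p l 1) (a.1.1 σ) (b.1.1 σ))
  have hker : ∀ z : K₀, μ z = 0 → ∃ w : K₀, z = (l : ℤ_[l]) • w := by
    intro z hz
    have hdvd : ∀ σ i, ∃ c, z.1.1 σ i = (l : ℤ_[l]) * c := fun σ i => by
      have h := torsCoord_point 1 (z.1.1 σ)
      rw [show (⟨point p l 1 (z.1.1 σ), point_mem 1 (z.1.1 σ)⟩ : Tors p (l ^ 1)) = 0 from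
        Subtype.ext (congrFun (congrArg Subtype.val hz) σ), map_zero] at h
      have h' : z.1.1 σ i ∈ RingHom.ker (PadicInt.toZModPow 1) :=
        RingHom.mem_ker.mpr (congrFun h i).symm
      rwa [PadicInt.ker_toZModPow, pow_one, Ideal.mem_span_singleton] at h'
    choose c hc using hdvd
    have hl0 : (l : ℤ_[l]) ≠ 0 := Nat.cast_ne_zero.mpr hl.ne_zero
    have hzc : ∀ σ, z.1.1 σ = (l : ℤ_[l]) • c σ := fun σ => funext (hc σ)
    have hpt : ∀ n σ, point p l n (c σ) = point p l (n + 1) (z.1.1 σ) := fun n σ => by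
      rw [hzc, point_natCast_smul, nsmul_point_succ]
    have hcan : ∀ {a b : Fin (homRank p) → ℤ_[l]},
        (l : ℤ_[l]) • a = (l : ℤ_[l]) • b → a = b := fun h =>
      smul_right_injective _ hl0 h
    have hw : IsTateSelmer R E Al c :=
      { cocycle := fun σ σ' => hcan (by
          rw [smul_add, ← Matrix.mulVec_smul, ← hzc, ← hzc, ← hzc, z.1.2.cocycle])
        finiteLevel := fun n => by simpa only [hpt] using z.1.2.finiteLevel (n + 1)
        mem := fun σ => hcan (by rw [← Matrix.mulVec_smul, ← hzc, z.1.2.mem])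
        unramified := fun q hq h1 h2 A hA σ hσ => hcan (by
          rw [← hzc, z.1.2.unramified q hq h1 h2 A hA σ hσ, smul_zero])
        atL := fun n => by simpa only [hpt] using z.1.2.atL (n + 1) }
    have hwk : (⟨c, hw⟩ : tateSelmer R E Al) ∈ K₀ := by
      refine LinearMap.mem_ker.mpr ?_
      show coeVec (c τ) = 0
      have h : coeVec (z.1.1 τ) = 0 := LinearMap.mem_ker.mp z.2
      rw [hzc, map_smul] at h
      exact (smul_eq_zero.mp h).resolve_left hl0
    exact ⟨⟨⟨c, hw⟩, hwk⟩, Subtype.ext (Subtype.ext (funext hzc))⟩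
  have := hsel.1
  obtain ⟨r, b, hr, hgen⟩ := exists_generators μ (fun z => by
    refine Subtype.ext (funext fun σ => ?_)
    show l • point p l 1 (z.1.1 σ) = 0
    simpa using pow_nsmul_point 1 (z.1.1 σ)) hsel.2
  have hspan : ∀ z : K₀, ∃ c : Fin r → ℤ_[l], z = ∑ i, c i • b i := by
    refine exists_eq_sum_of_mod (fun z hz => ?_) b fun z => ?_
    · refine Subtype.ext (Subtype.ext (funext fun σ => funext fun i => ?_))
      refine PadicInt.ext_of_toZModPow.mp fun k => ?_
      obtain ⟨w, rfl⟩ := hz k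
      show PadicInt.toZModPow k ((l : ℤ_[l]) ^ k * w.1.1 σ i) = PadicInt.toZModPow k 0
      rw [map_mul, map_pow, map_natCast, ← Nat.cast_pow, ZMod.natCast_self, zero_mul, map_zero]
    · obtain ⟨c, hc⟩ := hgen z
      have hsum : ∑ i, (c i : ℤ_[l]) • b i = ∑ i, c i • b i :=
        Finset.sum_congr rfl fun i _ => Nat.cast_smul_eq_nsmul ..
      have hd : μ (z - ∑ i, c i • b i) + μ (∑ i, c i • b i) = μ z := by
        rw [← μ.map_add]; exact congrArg μ (sub_add_cancel (G := ↥K₀) z _)
      obtain ⟨w, hw⟩ := hker _ (add_eq_right.mp (hd.trans hc))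
      exact ⟨fun i => (c i : ℤ_[l]), w,
        by rw [hsum, ← hw]; exact (add_sub_cancel (G := ↥K₀) _ z).symm⟩
  have htop : Submodule.span ℤ_[l] (Set.range b) = ⊤ := eq_top_iff.mpr fun z _ => by
    obtain ⟨c, rfl⟩ := hspan z
    exact sum_mem fun i _ => Submodule.smul_mem _ _ (Submodule.subset_span ⟨i, rfl⟩)
  calc Module.rank ℤ_[l] K₀ = Module.rank ℤ_[l] (⊤ : Submodule ℤ_[l] K₀) := (rank_top ℤ_[l] K₀).symm
    _ ≤ Cardinal.mk (Set.range b) := htop ▸ rank_span_le _
    _ ≤ Cardinal.mk (Fin r) := Cardinal.mk_range_le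
    _ ≤ _ := by simpa using hr

/-- **The cocycles are torsion modulo coboundaries.** -/
theorem exists_smul_eq_coboundary (hp : p.Prime) (hlp : l ≠ p)
    (hR : ∀ n σ, (R σ).map (PadicInt.toZModPow n) = torsRho p (l ^ n) σ) (hE : E * E = E)
    (hcomm : ∀ σ, R σ * E = E * R σ)
    (hadj : E.map ((↑) : ℤ_[l] → ℚ_[l]) ∈
      Algebra.adjoin ℚ_[l] (Set.range fun q => (heckeMat p q).map (Int.cast : ℤ → ℚ_[l])))
    {G : AddSubgroup (JZero p)} (hG : ∀ v, E *ᵥ v = v → point p l 1 v ∈ G) {g : ℕ}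
    (hdim : 2 * g ≤ Module.finrank ℚ_[l]
      (LinearMap.range (E.map ((↑) : ℤ_[l] → ℚ_[l])).mulVecLin))
    {Ap : ValuationSubring ℚbar} (hAp : Ap.LiesOverPrime p)
    (hsel : _root_.Finite (Global.selmer G l Al Ap) ∧
      Nat.card (Global.selmer G l Al Ap) ≤ l ^ g)
    (hz : IsTateSelmer R E Al z) :
    ∃ a : ℤ_[l], a ≠ 0 ∧ ∃ v, a • z = coboundary R v := by
  classical
  obtain ⟨τ, φ, ht⟩ := exists_tameData hp hlp hR hAp
  set EK := E.map ((↑) : ℤ_[l] → ℚ_[l]) with hEK
  set D := Module.finrank ℚ_[l] (LinearMap.range EK.mulVecLin) with hD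
  obtain ⟨u, hu, hrange⟩ := rank_range_evalAt_le (Al := Al) hp hR hE hadj ht
  change 2 * u ≤ D at hu
  have hrank : Module.rank ℤ_[l] (tateSelmer R E Al) ≤ (D : Cardinal) := by
    rw [← LinearMap.rank_range_add_rank_ker (evalAt R E Al τ)]
    refine (add_le_add hrange (rank_ker_evalAt_le ht hR hG hsel)).trans ?_
    rw [← Nat.cast_add, Nat.cast_le]
    omega
  -- independent vectors of the piece
  obtain ⟨s, hs, hspan, hli⟩ := exists_linearIndependent ℚ_[l]
    (Set.range fun i : Fin (homRank p) => EK *ᵥ Pi.single i 1)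
  have : Fintype s := (Set.toFinite _ |>.subset hs).fintype
  have hcard : Fintype.card s = D := by
    rw [hD, ← finrank_span_eq_card hli, Subtype.range_coe, hspan, range_mulVecLin,
      show (fun i : Fin (homRank p) => EK *ᵥ Pi.single i 1) = EK.col from
        funext fun i => Matrix.mulVec_single_one EK i]
  choose idx hidx using fun x : s => hs x.2
  let v : s → Fin (homRank p) → ℤ_[l] := fun x => E *ᵥ Pi.single (idx x) 1
  have hv : ∀ x, coeVec (v x) = (x : Fin (homRank p) → ℚ_[l]) := fun x => by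
    rw [coeVec_mulVec, ← hidx x]
    congr 1
    funext j
    rw [coeVec_apply, Pi.single_apply, Pi.single_apply]
    split <;> simp
  have hvli : LinearIndependent ℤ_[l] v := by
    refine LinearIndependent.of_comp coeVec
      ((LinearIndependent.iff_fractionRing ℤ_[l] ℚ_[l]).mpr ?_)
    rw [show coeVec ∘ v = ((↑) : s → Fin (homRank p) → ℚ_[l]) from funext hv]
    exact hli
  have hvE : ∀ x, E *ᵥ v x = v x := fun x => by rw [Matrix.mulVec_mulVec, hE]
  let w : Option s → tateSelmer R E Al := fun o =>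
    o.elim ⟨z, hz⟩ fun x => ⟨coboundary R (v x), isTateSelmer_coboundary hp hR hcomm (hvE x)⟩
  have hw : ¬ LinearIndependent ℤ_[l] w := fun h => by
    have h1 := h.cardinal_le_rank.trans hrank
    rw [Cardinal.mk_fintype, Nat.cast_le, Fintype.card_option, hcard] at h1
    omega
  obtain ⟨c, hc, o, ho⟩ := Fintype.not_linearIndependent_iff.mp hw
  have hsum : c none • z + coboundary R (∑ x, c (some x) • v x) = 0 := by
    have h := congrArg Subtype.val hc
    rw [Fintype.sum_option, Submodule.coe_add, Submodule.coe_smul, AddSubmonoidClass.coe_finsetSum]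
      at h
    rw [map_sum]
    simp only [map_smul]
    exact h
  refine ⟨c none, fun h0 => ?_, -∑ x, c (some x) • v x, ?_⟩
  · rw [h0, zero_smul, zero_add] at hsum
    have h := Fintype.linearIndependent_iff.mp hvli _ (eq_zero_of_coboundary hR hsum)
    cases o with
    | none => exact ho h0
    | some x => exact ho (h x)
  · rw [map_neg, eq_neg_iff_add_eq_zero]
    exact hsum

end Fermat.Agent.MazurStep.Finite
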