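import Fermat.Agent.MazurStep.Finite.Piece
import Fermat.Agent.MazurStep.Finite.Cocycle
import Fermat.Agent.MazurStep.Divisible

/-!
# A Hecke operator killing the rational points up to torsion

The Kummer cocycle of a rational point in the Eisenstein piece of the Tate module is a coboundary
up to torsion, so the idempotent of the piece is nilpotent modulo `l` on the rational points modulo
torsion. Its characteristic polynomial gives the operator.
-/

set_option autoImplicit false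

noncomputable section

open Matrix ModularCurve AlgebraicCurve Polynomial

namespace Fermat.Agent.MazurStep.Finite

open Fermat.Agent.GalRep Fermat.Agent.Cosets Fermat.Agent.Kummer
open Fermat.Agent.Reduction.CurveRed (GapBound)

local notation "ℚbar" => AlgebraicClosure ℚ
local notation "Γℚ" => AlgebraicClosure ℚ ≃ₐ[ℚ] AlgebraicClosure ℚ

/-- Polynomials of intertwined endomorphisms are intertwined. -/
theorem aeval_intertwine {M N : Type*} [AddCommGroup M] [AddCommGroup N] (f : M →ₗ[ℤ] N)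
    (A : Module.End ℤ M) (B : Module.End ℤ N) (h : ∀ x, f (A x) = B (f x)) (χ : ℤ[X]) (x : M) :
    f (aeval A χ x) = aeval B χ (f x) := by
  induction χ using Polynomial.induction_on generalizing x with
  | C a => simp only [aeval_C, Module.algebraMap_end_apply, map_smul]
  | add p q hp hq => simp only [map_add, LinearMap.add_apply, hp, hq]
  | monomial n a ih =>
    rw [pow_succ, ← mul_assoc, map_mul _ (_ * _), map_mul _ (_ * _), aeval_X, aeval_X,
      Module.End.mul_apply, Module.End.mul_apply, ih, h]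

/-- An endomorphism of a finite free module, nilpotent modulo `l`, has characteristic polynomial
`1` at `1` modulo `l`. -/
theorem charpoly_eval_one_of_nilpotent {l : ℕ} [Fact l.Prime] {Q : Type*} [AddCommGroup Q]
    [Module.Free ℤ Q] [Module.Finite ℤ Q] (f : Module.End ℤ Q)
    (h : ∀ x, ∃ N : ℕ, ∃ y, (f ^ N) x = l • y) :
    ((f.charpoly.eval 1 : ℤ) : ZMod l) = 1 := by
  classical
  let b := Module.Free.chooseBasis ℤ Q
  choose N y hy using fun j => h (b j)
  rw [← LinearMap.charpoly_toMatrix f b]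
  refine charpoly_eval_one (N := ∑ j, N j) fun i j => ?_
  have hpow : LinearMap.toMatrix b b f ^ (∑ j, N j) = LinearMap.toMatrix b b (f ^ (∑ j, N j)) :=
    (map_pow (LinearMap.toMatrixAlgEquiv b) f _).symm
  rw [hpow, LinearMap.toMatrix_apply,
    ← Nat.sub_add_cancel (Finset.single_le_sum (f := N) (fun _ _ => Nat.zero_le _)
      (Finset.mem_univ j)), pow_add, Module.End.mul_apply, hy, map_nsmul, map_nsmul,
    Finsupp.smul_apply, nsmul_eq_mul]
  exact dvd_mul_right _ _

/-- An endomorphism of a finitely generated group which is nilpotent modulo `l` up to torsion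
has a polynomial, `1` at `1` modulo `l`, killing the group up to torsion. -/
theorem exists_poly_torsion {l : ℕ} [Fact l.Prime] {V : Type*} [AddCommGroup V]
    (M : Submodule ℤ V) [Module.Finite ℤ M] (S : Module.End ℤ V) (hS : ∀ z ∈ M, S z ∈ M)
    (h : ∀ z ∈ M, ∃ k : ℕ, ∀ n : ℕ, ∃ w ∈ M, l ^ n • w = l ^ k • (S ^ l ^ n) z) :
    ∃ χ : ℤ[X], ((χ.eval 1 : ℤ) : ZMod l) = 1 ∧ ∀ z ∈ M, IsOfFinAddOrder (aeval S χ z) := by
  have hl : l.Prime := Fact.out
  let SM : Module.End ℤ M := S.restrict hS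
  let Tor := Submodule.torsion ℤ M
  have hTor : Tor ≤ Tor.comap SM := fun z ⟨a, ha⟩ => ⟨a, by
    show (a : ℤ) • SM z = 0
    rw [← map_smul, show (a : ℤ) • z = 0 from ha, map_zero]⟩
  let SQ : Module.End ℤ (M ⧸ Tor) := Tor.mapQ Tor SM hTor
  have hpow : ∀ (j : ℕ) (z : M), (((SM ^ j) z : M) : V) = (S ^ j) (z : V) := fun j => by
    induction j with
    | zero => intro z; rfl
    | succ j ih =>
      intro z
      rw [pow_succ, pow_succ, Module.End.mul_apply, Module.End.mul_apply, ih]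
      rfl
  have hpowQ : ∀ (j : ℕ) (z : M), (SQ ^ j) (Submodule.Quotient.mk z) =
      Submodule.Quotient.mk ((SM ^ j) z) := fun j => by
    induction j with
    | zero => intro z; rfl
    | succ j ih =>
      intro z
      rw [pow_succ, pow_succ, Module.End.mul_apply, Module.End.mul_apply]
      exact (congrArg (SQ ^ j) (Submodule.mapQ_apply Tor Tor SM z)).trans (ih (SM z))
  have hnil : ∀ q : M ⧸ Tor, ∃ N : ℕ, ∃ y, (SQ ^ N) q = l • y := fun q => by
    obtain ⟨z, rfl⟩ := Submodule.Quotient.mk_surjective Tor q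
    obtain ⟨k, hk⟩ := h z.1 z.2
    obtain ⟨w, hw, hwk⟩ := hk (k + 1)
    refine ⟨l ^ (k + 1), Submodule.Quotient.mk ⟨w, hw⟩, ?_⟩
    have e : l ^ k • (l • (⟨w, hw⟩ : M)) = l ^ k • (SM ^ l ^ (k + 1)) z := Subtype.ext (by
      rw [smul_smul, ← pow_succ, Submodule.coe_smul_of_tower, hwk, Submodule.coe_smul_of_tower,
        hpow])
    have e' := congrArg (Submodule.Quotient.mk (p := Tor)) e
    rw [Submodule.Quotient.mk_smul, Submodule.Quotient.mk_smul, Submodule.Quotient.mk_smul] at e'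
    rw [hpowQ]
    refine smul_right_injective (M ⧸ Tor) (r := ((l ^ k : ℕ) : ℤ))
      (Nat.cast_ne_zero.mpr (pow_ne_zero k hl.ne_zero)) ?_
    simp only [natCast_zsmul]
    exact e'.symm
  refine ⟨SQ.charpoly, charpoly_eval_one_of_nilpotent SQ hnil, fun z hz => ?_⟩
  have h1 := aeval_intertwine Tor.mkQ SM SQ (fun _ => rfl) SQ.charpoly ⟨z, hz⟩
  rw [SQ.aeval_self_charpoly, LinearMap.zero_apply] at h1
  obtain ⟨a, ha⟩ := (Submodule.Quotient.mk_eq_zero Tor).mp h1
  refine isOfFinAddOrder_iff_zsmul_eq_zero.mpr ⟨a, nonZeroDivisors.coe_ne_zero a, ?_⟩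
  rw [show z = M.subtype ⟨z, hz⟩ from rfl,
    ← aeval_intertwine M.subtype SM S (fun _ => rfl) SQ.charpoly ⟨z, hz⟩, ← map_smul,
    show (a : ℤ) • aeval SM SQ.charpoly (⟨z, hz⟩ : M) = 0 from ha, map_zero]

variable {p l : ℕ} [NeZero p] [Fact l.Prime] {Al : ValuationSubring ℚbar}
  {hAl : Al.LiesOverPrime l} {hlN : ¬ l ∣ p} {n₀ : ℕ} {c₁ : JZero p} {x : Tri hAl hlN}
  {E : Matrix (Fin (homRank p)) (Fin (homRank p)) ℤ_[l]}

theorem pow_apply (x : Tri hAl hlN) (j : ℕ) (z : JZero p) :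
    (x ^ j).1 z = ((AddMonoidHom.toIntLinearMap x.1 : Module.End ℤ (JZero p)) ^ j) z := by
  induction j generalizing z with
  | zero => rfl
  | succ j ih =>
    rw [pow_succ, pow_succ, Module.End.mul_apply]
    exact ih (x.1 z)

variable (hgap : (modCurve hAl p hlN).GapBound n₀) (hx : IsPieceOp hAl hlN n₀ c₁ x)
  (hE : ∀ n, E.map (PadicInt.toZModPow n) =
    (x.2.1 ^ l ^ n).map (Int.cast : ℤ → ZMod (l ^ n)))

include hgap hx hE

/-- The limit idempotent on points. -/
theorem point_limit (n : ℕ) (v : Fin (homRank p) → ℤ_[l]) :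
    point p l n (E *ᵥ v) = (x ^ l ^ n).1 (point p l n v) :=
  (good_pow hgap hx.good (l ^ n)).coords.point_mulVec (hE n) v

theorem point_one_mem {v : Fin (homRank p) → ℤ_[l]} (hv : E *ᵥ v = v) :
    point p l 1 v ∈ pieceGroup x := by
  have hl : l • point p l 1 v = 0 := by simpa using pow_nsmul_point 1 v
  refine ⟨hl, ?_⟩
  have h := apply_eq_of_red hAl hlN c₁ (good_pow hgap hx.good (l ^ 1)) hx.good
    (by rw [map_pow, pow_one, IsIdempotentElem.pow_eq hx.idem (Fact.out : l.Prime).ne_zero]) hl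
  rw [← h, ← point_limit hgap hx hE, hv]

/-- **The Kummer step**: powers of the piece make a rational point `l`-divisible up to `l ^ k`. -/
theorem exists_pow_nsmul_eq (hp : p.Prime) (hlc : l • c₁ = 0)
    (heig : ∀ q : Nat.Primes, (q : ℕ) ≠ p → heckeOperatorBar p q c₁ = (1 + (q : ℕ)) • c₁)
    (hEE : E * E = E)
    (hdim : 2 * pieceRank x ≤
      Module.finrank ℚ_[l] (LinearMap.range (E.map ((↑) : ℤ_[l] → ℚ_[l])).mulVecLin))
    (hadj : E.map ((↑) : ℤ_[l] → ℚ_[l]) ∈
      Algebra.adjoin ℚ_[l] (Set.range fun q => (heckeMat p q).map (Int.cast : ℤ → ℚ_[l])))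
    {x₀ : JZero p} (hx₀ : ∀ σ : Γℚ, σ • x₀ = x₀) :
    ∃ k : ℕ, ∀ n : ℕ, ∃ w : JZero p, (∀ σ : Γℚ, σ • w = w) ∧
      l ^ n • w = l ^ k • (x ^ l ^ n).1 x₀ := by
  classical
  have hl : l.Prime := Fact.out
  have hlp : l ≠ p := fun h => hlN (h ▸ dvd_rfl)
  obtain ⟨R, hR⟩ := exists_padic_lift (p := l) (fun n => torsRho p (l ^ n))
    fun n σ => torsRho_cast p l n σ
  have hR' : ∀ n σ, (R σ).map (PadicInt.toZModPow n) = torsRho p (l ^ n) σ := fun n σ => hR n σ
  have hgal : ∀ (n : ℕ) (σ : Γℚ) (z : JZero p),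
      (x ^ l ^ n).1 (σ • z) = σ • (x ^ l ^ n).1 z :=
    fun n => (good_pow hgap hx.good (l ^ n)).galois
  have hcomm : ∀ σ, R σ * E = E * R σ := fun σ => Matrix.ext_of_mulVec_single fun i => by
    refine ext_of_point fun n => ?_
    rw [← Matrix.mulVec_mulVec, ← Matrix.mulVec_mulVec, ← smul_point R hR',
      point_limit hgap hx hE, point_limit hgap hx hE, ← smul_point R hR', hgal]
  choose div hdiv using fun a : JZero p => exists_nsmul_eq_jZero p a l hl.pos
  let y : ℕ → JZero p := fun n => Nat.rec x₀ (fun _ a => div a) n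
  have hy : ∀ n, l ^ n • y n = x₀ := by
    intro n
    induction n with
    | zero => exact one_nsmul x₀
    | succ n ih => rw [pow_succ, mul_smul, show l • y (n + 1) = y n from hdiv (y n), ih]
  have hd : ∀ n (σ : Γℚ), l ^ n • (σ • y n - y n) = 0 := fun n σ => by
    rw [nsmul_sub, ← galois_nsmul, hy, hx₀, sub_self]
  choose κ hκ using fun σ : Γℚ => exists_point_eq (p := p) (l := l) (fun n => σ • y n - y n)
    (fun n => hd n σ) fun n => by
      show l • (σ • y (n + 1) - y (n + 1)) = σ • y n - y n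
      rw [nsmul_sub, ← galois_nsmul, show l • y (n + 1) = y n from hdiv (y n)]
  have hκc : ∀ σ τ, κ (σ * τ) = κ σ + R σ *ᵥ κ τ := fun σ τ => ext_of_point fun n => by
    rw [map_add, ← smul_point R hR', hκ, hκ, hκ, mul_smul, smul_sub]
    abel
  have hpt : ∀ n σ, point p l n (E *ᵥ κ σ) = σ • (x ^ l ^ n).1 (y n) - (x ^ l ^ n).1 (y n) :=
    fun n σ => by rw [point_limit hgap hx hE, hκ, map_sub, hgal]
  have hz : IsTateSelmer R E Al fun σ => E *ᵥ κ σ :=
    { cocycle := fun σ τ => by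
        rw [hκc, Matrix.mulVec_add, Matrix.mulVec_mulVec, ← hcomm, ← Matrix.mulVec_mulVec]
      finiteLevel := fun n => by
        obtain ⟨L, hL, hfix⟩ := MW.exists_fixing_class p ((x ^ l ^ n).1 (y n))
        refine ⟨L, hL, fun σ τ hστ => ?_⟩
        have h : (σ⁻¹ * τ) • (x ^ l ^ n).1 (y n) = (x ^ l ^ n).1 (y n) := hfix _ fun a ha => by
          rw [AlgEquiv.mul_apply, ← hστ a ha]; exact σ.symm_apply_apply a
        rw [mul_smul, inv_smul_eq_iff] at h
        simp only [hpt, h]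
      mem := fun σ => by rw [Matrix.mulVec_mulVec, hEE]
      unramified := fun q hq h1 h2 A hA σ hσ => by
        have : Fact q.Prime := ⟨hq⟩
        have hqp : ¬ q ∣ p := fun h => h2 ((Nat.prime_dvd_prime_iff_eq hq hp).mp h)
        have h0 : ∀ n, σ • y n - y n = 0 := fun n =>
          Reduction.Level.spBar_injective_torsion A hA p hqp
            (fun h => h1 ((Nat.prime_dvd_prime_iff_eq hq hl).mp (hq.dvd_of_dvd_pow h))) (hd n σ)
            (by rw [map_sub, Reduction.Level.spBar_inertia A hA p hqp hσ, sub_self])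
        rw [show κ σ = 0 from eq_zero_of_point fun n => by rw [hκ, h0], Matrix.mulVec_zero]
      atL := fun n => ⟨(x ^ l ^ n).1 (y n), fun σ _ => hpt n σ⟩ }
  obtain ⟨Ap, hAp⟩ := Gal.exists_liesOverPrime (L := ℚbar) hp
  obtain ⟨a, ha, v, hav⟩ := exists_smul_eq_coboundary hp hlp hR' hEE hcomm hadj
    (fun v hv => point_one_mem hgap hx hE hv) hdim hAp (hx.selmer_le hgap hp hlc heig hAp) hz
  set k := PadicInt.valuation a
  set u := PadicInt.unitCoeff ha
  have hk : (l : ℤ_[l]) ^ k • (fun σ => E *ᵥ κ σ) =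
      coboundary R ((↑u⁻¹ : ℤ_[l]) • v) := by
    rw [map_smul, ← hav, smul_smul]
    conv_rhs => rw [PadicInt.unitCoeff_spec ha, ← mul_assoc, Units.inv_mul, one_mul]
  refine ⟨k, fun n => ⟨l ^ k • (x ^ l ^ n).1 (y n) - point p l n ((↑u⁻¹ : ℤ_[l]) • v),
    fun σ => ?_, ?_⟩⟩
  · have h := congrArg (point p l n) (congrFun hk σ)
    rw [Pi.smul_apply, ← Nat.cast_pow, point_natCast_smul, hpt, coboundary_apply, map_sub,
      ← smul_point R hR', nsmul_sub, ← galois_nsmul] at h
    rw [smul_sub, ← sub_eq_zero, ← sub_eq_zero.mpr h]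
    abel
  · rw [nsmul_sub, pow_nsmul_point, sub_zero, smul_comm, ← map_nsmul, hy]

end Fermat.Agent.MazurStep.Finite

namespace Fermat.Agent.MazurStep

open Fermat.Agent.MazurStep.Finite Fermat.Agent.Cosets

local notation "ℚbar" => AlgebraicClosure ℚ
local notation "Γℚ" => AlgebraicClosure ℚ ≃ₐ[ℚ] AlgebraicClosure ℚ

/-- **An operator killing the rational points up to torsion but not the Eisenstein point.** -/
theorem exists_hecke_kills {p l : ℕ} [NeZero p] (hp : p.Prime) (hl : l.Prime) (hlp : l ≠ p)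
    {c₁ : JZero p} (hc0 : c₁ ≠ 0) (hlc : l • c₁ = 0) (_hfix : ∀ σ : Γℚ, σ • c₁ = c₁)
    (heig : ∀ q : Nat.Primes, (q : ℕ) ≠ p → heckeOperatorBar p q c₁ = (1 + (q : ℕ)) • c₁) :
    ∃ T ∈ Algebra.adjoin ℤ (heckeOperatorBar p '' {q : Nat.Primes | (q : ℕ) ≠ p}),
      T c₁ ≠ 0 ∧ ∀ z : JZero p, (∀ σ : Γℚ, σ • z = z) → IsOfFinAddOrder (T z) := by
  classical
  have := Fact.mk hl
  have hlN : ¬ l ∣ p := fun h => hlp ((Nat.prime_dvd_prime_iff_eq hl hp).mp h)
  obtain ⟨Al, hAl⟩ := Gal.exists_liesOverPrime (L := ℚbar) hl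
  obtain ⟨n₀, hgap⟩ := exists_gapBound_modCurve hAl p hlN
  obtain ⟨x, hx⟩ := exists_pieceOp hAl hlN hgap c₁
  obtain ⟨E, hEE, hE, hdim, hadj⟩ := hx.exists_limit hgap
  let S : Module.End ℤ (JZero p) := AddMonoidHom.toIntLinearMap x.1
  let M : Submodule ℤ (JZero p) := AddSubgroup.toIntSubmodule (FixedPoints.addSubgroup Γℚ (JZero p))
  have : Module.Finite ℤ M :=
    Module.Finite.iff_addGroup_fg.mpr (MW.fg_fixedPoints_jZero p)
  obtain ⟨χ, hχ, htor⟩ := exists_poly_torsion (l := l) M S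
    (fun z hz σ => (hx.good.galois σ z).symm.trans (congrArg x.1 (hz σ))) fun z hz => by
      obtain ⟨k, hk⟩ := exists_pow_nsmul_eq hgap hx hE hp hlc heig hEE hdim hadj hz
      refine ⟨k, fun n => ?_⟩
      obtain ⟨w, hw, hwk⟩ := hk n
      exact ⟨w, hw, hwk.trans (congrArg (l ^ k • ·) (pow_apply x (l ^ n) z))⟩
  refine ⟨aeval S χ, ?_, ?_, fun z hz => htor z hz⟩
  · exact Algebra.adjoin_le (Set.singleton_subset_iff.mpr hx.good.adjoin)
      (Polynomial.aeval_mem_adjoin_singleton ℤ S)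
  · have h := aeval_intertwine (LinearMap.toSpanSingleton ℤ (JZero p) c₁) (1 : Module.End ℤ ℤ) S
      (fun a => by
        show a • c₁ = S (a • c₁)
        rw [map_smul]; exact congrArg (a • ·) hx.fix.symm) χ 1
    rw [LinearMap.toSpanSingleton_apply, LinearMap.toSpanSingleton_apply, one_smul,
      show (1 : Module.End ℤ ℤ) = algebraMap ℤ (Module.End ℤ ℤ) 1 from (map_one _).symm,
      aeval_algebraMap_apply_eq_algebraMap_eval, Module.algebraMap_end_apply, smul_eq_mul,
      mul_one] at h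
    rw [← h]
    intro h0
    obtain ⟨b, hb⟩ := (ZMod.intCast_zmod_eq_zero_iff_dvd (χ.eval 1 - 1) l).mp
      (by rw [Int.cast_sub, hχ, Int.cast_one, sub_self])
    rw [show χ.eval 1 = 1 + b * (l : ℤ) by linarith [hb, mul_comm b (l : ℤ)], add_smul, one_smul,
      mul_smul, natCast_zsmul, hlc, smul_zero, add_zero] at h0
    exact hc0 h0

end Fermat.Agent.MazurStep
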