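import Fermat.Agent.GalRep.DatumJZero
import Fermat.Agent.GalRep.Coeff

/-!
# Tate vectors as compatible systems of torsion points

A vector in `ℤ_l ^ d` gives a point of `J₀(p)[l ^ n]` for every `n`, through the lattice
coordinates.
-/

set_option autoImplicit false

noncomputable section

open Matrix ModularCurve AlgebraicCurve

namespace Fermat.Agent.MazurStep.Finite

open Fermat.Agent.GalRep Fermat.Agent.Kummer Fermat.Agent.Cosets

local notation "Γℚ" => AlgebraicClosure ℚ ≃ₐ[ℚ] AlgebraicClosure ℚ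

variable (p : ℕ) [NeZero p] (l : ℕ) [Fact l.Prime]

/-- The point of level `l ^ n` of a Tate vector. -/
def point (n : ℕ) : (Fin (homRank p) → ℤ_[l]) →+ JZero p :=
  (Tors p (l ^ n)).subtype.comp
    ((torsCoord p (l ^ n)).symm.toLinearMap.toAddMonoidHom.comp
      ((PadicInt.toZModPow n).toAddMonoidHom.compLeft (Fin (homRank p))))

variable {p l}

theorem point_apply (n : ℕ) (v : Fin (homRank p) → ℤ_[l]) :
    point p l n v =
      ((torsCoord p (l ^ n)).symm (fun i => PadicInt.toZModPow n (v i)) : JZero p) := rfl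

theorem point_mem (n : ℕ) (v : Fin (homRank p) → ℤ_[l]) : point p l n v ∈ Tors p (l ^ n) :=
  ((torsCoord p (l ^ n)).symm _).2

theorem pow_nsmul_point (n : ℕ) (v : Fin (homRank p) → ℤ_[l]) : l ^ n • point p l n v = 0 :=
  nsmul_eq_zero_of_mem p (l ^ n) (point_mem n v)

theorem eq_of_torsCoord {n : ℕ} {x : JZero p} (hx : x ∈ Tors p (l ^ n))
    {v : Fin (homRank p) → ℤ_[l]}
    (h : torsCoord p (l ^ n) ⟨x, hx⟩ = fun i => PadicInt.toZModPow n (v i)) :
    point p l n v = x := by
  rw [point_apply, ← h, LinearEquiv.symm_apply_apply]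

theorem torsCoord_point (n : ℕ) (v : Fin (homRank p) → ℤ_[l]) :
    torsCoord p (l ^ n) ⟨point p l n v, point_mem n v⟩ = fun i => PadicInt.toZModPow n (v i) :=
  (torsCoord p (l ^ n)).apply_symm_apply _

theorem point_congr {n : ℕ} {v w : Fin (homRank p) → ℤ_[l]}
    (h : ∀ i, PadicInt.toZModPow n (v i) = PadicInt.toZModPow n (w i)) :
    point p l n v = point p l n w := by
  rw [point_apply, point_apply, funext h]

theorem nsmul_point_succ (n : ℕ) (v : Fin (homRank p) → ℤ_[l]) :
    l • point p l (n + 1) v = point p l n v := by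
  have hy : l • point p l (n + 1) v ∈ Tors p (l ^ n) := by
    rw [Pic0.mem_torsion, natCast_zsmul, smul_smul, ← pow_succ, pow_nsmul_point]
  refine (eq_of_torsCoord hy ?_).symm
  rw [torsCoord_reduction p (pow_succ l n).symm ⟨_, point_mem (n + 1) v⟩ ⟨_, hy⟩ rfl,
    torsCoord_point]
  funext i
  exact RingHom.congr_fun (PadicInt.zmod_cast_comp_toZModPow n (n + 1) n.le_succ) (v i)

theorem point_smul (n : ℕ) (a : ℤ_[l]) (v : Fin (homRank p) → ℤ_[l]) :
    point p l n (a • v) = (PadicInt.toZModPow n a).val • point p l n v := by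
  rw [← map_nsmul]
  refine point_congr fun i => ?_
  rw [Pi.smul_apply, Pi.smul_apply, smul_eq_mul, map_mul, map_nsmul, nsmul_eq_mul,
    ZMod.natCast_zmod_val]

theorem point_natCast_smul (n j : ℕ) (v : Fin (homRank p) → ℤ_[l]) :
    point p l n ((j : ℤ_[l]) • v) = j • point p l n v := by
  rw [← map_nsmul, Nat.cast_smul_eq_nsmul]

/-- A vector with trivial points is zero. -/
theorem eq_zero_of_point {v : Fin (homRank p) → ℤ_[l]} (h : ∀ n, point p l n v = 0) : v = 0 :=
  funext fun i => PadicInt.ext_of_toZModPow.mp fun n => by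
    have h1 := torsCoord_point n v
    rw [show (⟨point p l n v, point_mem n v⟩ : Tors p (l ^ n)) = 0 from Subtype.ext (h n),
      map_zero] at h1
    rw [Pi.zero_apply, map_zero, ← congrFun h1 i, Pi.zero_apply]

/-- A Tate vector is determined by its points at all levels. -/
theorem ext_of_point {v w : Fin (homRank p) → ℤ_[l]} (h : ∀ n, point p l n v = point p l n w) :
    v = w :=
  sub_eq_zero.mp (eq_zero_of_point fun n => by rw [map_sub, h, sub_self])

/-- A compatible system of points comes from a vector. -/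
theorem exists_point_eq (P : ℕ → JZero p) (hP : ∀ n, l ^ n • P n = 0)
    (hc : ∀ n, l • P (n + 1) = P n) : ∃ v, ∀ n, point p l n v = P n := by
  have hm : ∀ n, P n ∈ Tors p (l ^ n) := fun n => by
    rw [Pic0.mem_torsion, natCast_zsmul, hP]
  choose v hv using fun i => exists_toZModPow_eq
    (fun n => torsCoord p (l ^ n) ⟨P n, hm n⟩ i) fun n => by
      rw [torsCoord_reduction p (pow_succ l n).symm ⟨P (n + 1), hm (n + 1)⟩ ⟨P n, hm n⟩
        (hc n).symm]
      rfl
  exact ⟨v, fun n => eq_of_torsCoord (hm n) (funext fun i => (hv i n).symm)⟩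

/-- The Galois action. -/
theorem smul_point (R : Γℚ →* Matrix (Fin (homRank p)) (Fin (homRank p)) ℤ_[l])
    (hR : ∀ n σ, (R σ).map (PadicInt.toZModPow n) = torsRho p (l ^ n) σ) (σ : Γℚ) (n : ℕ)
    (v : Fin (homRank p) → ℤ_[l]) : σ • point p l n v = point p l n (R σ *ᵥ v) := by
  have hm : σ • point p l n v ∈ Tors p (l ^ n) := by
    rw [Pic0.mem_torsion, natCast_zsmul, ← galois_nsmul, pow_nsmul_point, galois_zero]
  refine (eq_of_torsCoord hm ?_).symm
  rw [show (⟨σ • point p l n v, hm⟩ : Tors p (l ^ n)) =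
      JZero.torsionGaloisRep p (l ^ n) σ ⟨_, point_mem n v⟩ from
    Subtype.ext (JZero.coe_torsionGaloisRep_apply p σ _).symm,
    ← torsRho_mulVec, torsCoord_point, ← hR]
  funext i
  exact (RingHom.map_mulVec (PadicInt.toZModPow n) (R σ) v i).symm

/-- An operator given by an integral matrix on every torsion level. -/
def Coords (p : ℕ) [NeZero p] (T : JZero p →+ JZero p)
    (X : Matrix (Fin (homRank p)) (Fin (homRank p)) ℤ) : Prop :=
  ∀ (m : ℕ) [NeZero m] (x : Tors p m) (hx : T x ∈ Tors p m),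
    torsCoord p m ⟨T x, hx⟩ = X.map (Int.cast : ℤ → ZMod m) *ᵥ torsCoord p m x

omit [NeZero p] in
theorem map_mem_tors (T : JZero p →+ JZero p) {m : ℕ} {x : JZero p} (hx : x ∈ Tors p m) :
    T x ∈ Tors p m := by
  rw [Pic0.mem_torsion] at hx ⊢
  rw [← map_zsmul, hx, map_zero]

theorem Coords.point_mulVec {T : JZero p →+ JZero p}
    {X : Matrix (Fin (homRank p)) (Fin (homRank p)) ℤ} (hT : Coords p T X) {n : ℕ}
    {Y : Matrix (Fin (homRank p)) (Fin (homRank p)) ℤ_[l]}
    (hY : Y.map (PadicInt.toZModPow n) = X.map (Int.cast : ℤ → ZMod (l ^ n)))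
    (v : Fin (homRank p) → ℤ_[l]) : point p l n (Y *ᵥ v) = T (point p l n v) := by
  refine eq_of_torsCoord (map_mem_tors T (point_mem n v)) ?_
  rw [hT (l ^ n) ⟨_, point_mem n v⟩, torsCoord_point, ← hY]
  funext i
  exact (RingHom.map_mulVec (PadicInt.toZModPow n) Y v i).symm

/-- `T_q` has the matrix `heckeMat p q` in lattice coordinates. -/
theorem coords_heckeOperatorBar (q : Nat.Primes) :
    Coords p (heckeOperatorBar p q).toAddMonoidHom (heckeMat p q) := fun m _ x hx => by
  rw [← torsCoord_torsHecke]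
  rfl

theorem coords_zero : Coords p 0 0 := fun m _ x hx => by
  rw [show (⟨(0 : JZero p →+ JZero p) x, hx⟩ : Tors p m) = 0 from Subtype.ext rfl, map_zero,
    Matrix.map_zero _ Int.cast_zero, Matrix.zero_mulVec]

theorem coords_one : Coords p (AddMonoidHom.id _) 1 := fun m _ x hx => by
  rw [show (⟨AddMonoidHom.id _ (x : JZero p), hx⟩ : Tors p m) = x from rfl,
    Matrix.map_one _ Int.cast_zero Int.cast_one, Matrix.one_mulVec]

theorem Coords.add {T T' : JZero p →+ JZero p}
    {X X' : Matrix (Fin (homRank p)) (Fin (homRank p)) ℤ} (h : Coords p T X)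
    (h' : Coords p T' X') : Coords p (T + T') (X + X') := fun m _ x hx => by
  rw [Matrix.map_add _ Int.cast_add, Matrix.add_mulVec, ← h m x (map_mem_tors T x.2),
    ← h' m x (map_mem_tors T' x.2), ← map_add]
  rfl

/-- The matrix of a composite is the product of the matrices. -/
theorem Coords.comp {T T' : JZero p →+ JZero p}
    {X X' : Matrix (Fin (homRank p)) (Fin (homRank p)) ℤ} (h : Coords p T X)
    (h' : Coords p T' X') : Coords p (T.comp T') (X * X') := fun m _ x hx => by
  rw [show (X * X').map (Int.cast : ℤ → ZMod m) =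
      X.map (Int.cast : ℤ → ZMod m) * X'.map (Int.cast : ℤ → ZMod m) from
    map_mul (Int.castRingHom (ZMod m)).mapMatrix X X', ← Matrix.mulVec_mulVec,
    ← h' m x (map_mem_tors T' x.2), ← h m ⟨_, map_mem_tors T' x.2⟩ hx]
  rfl

end Fermat.Agent.MazurStep.Finite
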