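import Fermat.Agent.MazurStep.Local.Formal
import Fermat.Agent.MazurStep.Finite.Tate

/-!
# Hecke operators with their matrices on torsion and on forms

An operator on `J₀(p)` is *good* when it is given by an integral matrix on the torsion, by a
matrix on the tangents of the modular curve at `l`, and both come from one element of the Hecke
algebra.
-/

set_option autoImplicit false

noncomputable section

open Matrix ModularCurve AlgebraicCurve
open CuspForm (heckeAlgebra)
open Fermat.Agent.Reduction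

namespace Fermat.Agent.MazurStep

section Transfer

variable {K k : Type*} [Field K] [Field k] {A : ValuationSubring K} {π : A →+* k}
  {S : CurveRed A π} {F' : IntermediateField K (LaurentSeries K)} (h : F' = S.F)

/-- A property of the coefficients passes to a curve with an equal field. -/
theorem Forms.transfer_copyF (Φ : Forms S) (P : ∀ g : ℕ, (Fin g → ℕ → ℤ) → Prop)
    (hP : P S.g Φ.coef) : P (MazurStep.copyF S h).g (Φ.copyF h).coef := hP

end Transfer

namespace Finite

open Fermat.Agent.GalRep Fermat.Agent.Cosets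

local notation "ℚbar" => AlgebraicClosure ℚ
local notation "Γℚ" => AlgebraicClosure ℚ ≃ₐ[ℚ] AlgebraicClosure ℚ
local notation "S2" N => CuspForm (CongruenceSubgroup.Gamma0 N) 2

section Basis

variable {ℓ : ℕ} [Fact ℓ.Prime] {A : ValuationSubring ℚbar} (hA : A.LiesOverPrime ℓ) (N : ℕ)
  [NeZero N] (hℓN : ¬ ℓ ∣ N)

theorem exists_formBasis_intBasis (B : OrdinaryP.IntBasis N) :
    ∃ b : Module.Basis (Fin (Level.qbarCurve A hA N hℓN).g) ℂ (S2 N), ∀ i n,
      OrdinaryP.coeffs N (b i) n = (((B.toForms hA hℓN).coef i n : ℤ) : ℂ) := by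
  have hspan : ⊤ ≤ Submodule.span ℂ (Set.range B.form) := by
    refine (MFCore.hasIntegralStructure N 2).ge.trans (Submodule.span_le.2 fun f hf => ?_)
    obtain ⟨z, rfl⟩ := B.repr f hf
    exact Submodule.sum_mem _ fun i _ =>
      Submodule.smul_of_tower_mem _ (z i) (Submodule.subset_span ⟨i, rfl⟩)
  refine ⟨(basisOfTopLeSpanOfCardEqFinrank B.form hspan
    ((Fintype.card_fin _).trans B.rank_eq)).reindex (finCongr (B.rank_eq_g hA hℓN)),
    fun i n => ?_⟩
  rw [Module.Basis.reindex_apply, coe_basisOfTopLeSpanOfCardEqFinrank]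
  exact B.coeffs_form _ n

/-- The integral forms of the modular curve are a basis of the cusp forms. -/
theorem exists_formBasis :
    ∃ b : Module.Basis (Fin (modCurve hA N hℓN).g) ℂ (S2 N), ∀ i n,
      OrdinaryP.coeffs N (b i) n = (((modForms hA N hℓN).coef i n : ℤ) : ℂ) :=
  (OrdinaryP.levelForms (N := N) hA hℓN).transfer_copyF
    (modularFunctionFieldBar_eq_qbarCurve hA N hℓN)
    (fun g a => ∃ b : Module.Basis (Fin g) ℂ (S2 N), ∀ i n,
      OrdinaryP.coeffs N (b i) n = ((a i n : ℤ) : ℂ))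
    (exists_formBasis_intBasis hA N hℓN _)

/-- The cusp forms behind the chosen forms. -/
def formBasis : Module.Basis (Fin (modCurve hA N hℓN).g) ℂ (S2 N) :=
  (exists_formBasis hA N hℓN).choose

theorem coeffs_formBasis (i : Fin (modCurve hA N hℓN).g) (n : ℕ) :
    OrdinaryP.coeffs N (formBasis hA N hℓN i) n = (((modForms hA N hℓN).coef i n : ℤ) : ℂ) :=
  (exists_formBasis hA N hℓN).choose_spec i n

/-- The coefficients of `T_q` on the chosen forms are those of the Hecke operator. -/
theorem heckeOp_formBasis {q : Nat.Primes} (hqN : ¬ (q : ℕ) ∣ N)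
    {M : Matrix (Fin (modCurve hA N hℓN).g) (Fin (modCurve hA N hℓN).g) ℤ}
    (hM : ∀ i n, OrdinaryP.heckeCoef N q ((modForms hA N hℓN).coef i) n =
      ∑ j, M i j * (modForms hA N hℓN).coef j n) (i : Fin (modCurve hA N hℓN).g) :
    (heckeOp N q : Module.End ℂ (S2 N)) (formBasis hA N hℓN i) =
      ∑ j, (M i j : ℂ) • formBasis hA N hℓN j := by
  have hper : (1 : ℝ) ∈ (CongruenceSubgroup.Gamma0 N : Subgroup (GL (Fin 2) ℝ)).strictPeriods :=
    CongruenceSubgroup.one_mem_strictPeriods_Gamma0 N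
  refine OrdinaryP.coeffs_injective N (funext fun n => ?_)
  have hrhs : OrdinaryP.coeffs N (∑ j, (M i j : ℂ) • formBasis hA N hℓN j) n =
      (OrdinaryP.heckeCoef N q ((modForms hA N hℓN).coef i) n : ℂ) := by
    rw [hM, map_sum, Finset.sum_apply, Int.cast_sum]
    exact Finset.sum_congr rfl fun j _ => by
      rw [map_smul, Pi.smul_apply, coeffs_formBasis, smul_eq_mul, Int.cast_mul]
  rw [hrhs, coe_heckeOp_of_not_dvd N q hqN, OrdinaryP.coeffs_apply,
    CuspForm.coe_heckeTLin_apply,
    ModularFormClass.qCoeff_heckeT (formBasis hA N hℓN i) hper q.2.ne_zero,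
    ModularForm.coeffHeckeT_apply, OrdinaryP.heckeCoef]
  simp only [← OrdinaryP.coeffs_apply]
  rw [coeffs_formBasis hA N hℓN i (n * q), coeffs_formBasis hA N hℓN i (n / q)]
  split_ifs <;> first | (push_cast; ring1) | (push_cast; norm_num; done) | (exfalso; tauto)

end Basis

section Good

variable {p l : ℕ} [NeZero p] [Fact l.Prime] {Al : ValuationSubring ℚbar}
  (hAl : Al.LiesOverPrime l) (hlN : ¬ l ∣ p)

/-- An operator, a matrix on torsion, a matrix on forms. -/
abbrev Tri : Type :=
  AddMonoid.End (JZero p) × Matrix (Fin (homRank p)) (Fin (homRank p)) ℤ ×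
    Matrix (Fin (modCurve hAl p hlN).g) (Fin (modCurve hAl p hlN).g) ℤ

/-- The primes other than `p`. -/
def goodPrimes (p : ℕ) : Set Nat.Primes := {q | (q : ℕ) ≠ p}

/-- A good operator. -/
structure IsGood (n₀ : ℕ) (c₁ : JZero p) (x : Tri hAl hlN) : Prop where
  acts : (modForms hAl p hlN).Acts n₀ x.1 x.2.2
  coords : Coords p x.1 x.2.1
  galois : ∀ (σ : Γℚ) (z : JZero p), x.1 (σ • z) = σ • x.1 z
  forms : ∃ t : heckeAlgebra p 2 ∅, latticeMat p t = x.2.1 ∧ ∀ i,
    (t : Module.End ℂ (S2 p)) (formBasis hAl p hlN i) =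
      ∑ j, (x.2.2 i j : ℂ) • formBasis hAl p hlN j
  adjoin : (AddMonoidHom.toIntLinearMap x.1 : Module.End ℤ (JZero p)) ∈
    Algebra.adjoin ℤ (heckeOperatorBar p '' goodPrimes p)
  eigen : ∃ j : ℕ, x.1 c₁ = j • c₁

variable {n₀ : ℕ} (hgap : (modCurve hAl p hlN).GapBound n₀) (c₁ : JZero p)

/-- The good operators form a semiring. -/
def goodSub : Subsemiring (Tri hAl hlN) where
  carrier := {x | IsGood hAl hlN n₀ c₁ x}
  mul_mem' {a b} ha hb :=
    { acts := Forms.Acts.comp ha.acts hb.acts
      coords := ha.coords.comp hb.coords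
      galois := fun σ z => by
        show a.1 (b.1 (σ • z)) = σ • a.1 (b.1 z)
        rw [hb.galois, ha.galois]
      forms := by
        obtain ⟨t, ht, htf⟩ := ha.forms
        obtain ⟨u, hu, huf⟩ := hb.forms
        refine ⟨t * u, by rw [map_mul, ht, hu]; rfl, fun i => ?_⟩
        rw [mul_comm, MulMemClass.coe_mul, Module.End.mul_apply, htf, map_sum]
        simp only [map_smul, huf, Finset.smul_sum, smul_smul]
        rw [Finset.sum_comm]
        refine Finset.sum_congr rfl fun j _ => ?_
        rw [← Finset.sum_smul]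
        congr 1
        show _ = (((a.2.2 * b.2.2) i j : ℤ) : ℂ)
        simp [Matrix.mul_apply]
      adjoin := by
        have h := mul_mem ha.adjoin hb.adjoin
        exact h
      eigen := by
        obtain ⟨i, hi⟩ := ha.eigen
        obtain ⟨j, hj⟩ := hb.eigen
        refine ⟨j * i, ?_⟩
        show a.1 (b.1 c₁) = _
        rw [hj, map_nsmul, hi, smul_smul] }
  one_mem' :=
    { acts := Forms.acts_id _
      coords := coords_one
      galois := fun _ _ => rfl
      forms := ⟨1, map_one _, fun i => by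
        simp [Matrix.one_apply, apply_ite (Int.cast : ℤ → ℂ), ite_smul]⟩
      adjoin := one_mem (Algebra.adjoin ℤ (heckeOperatorBar p '' goodPrimes p))
      eigen := ⟨1, (one_nsmul c₁).symm⟩ }
  add_mem' {a b} ha hb :=
    { acts := Forms.Acts.add ha.acts hb.acts
      coords := ha.coords.add hb.coords
      galois := fun σ z => by
        show a.1 (σ • z) + b.1 (σ • z) = σ • (a.1 z + b.1 z)
        rw [ha.galois, hb.galois, smul_add]
      forms := by
        obtain ⟨t, ht, htf⟩ := ha.forms
        obtain ⟨u, hu, huf⟩ := hb.forms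
        refine ⟨t + u, by rw [map_add, ht, hu]; rfl, fun i => ?_⟩
        rw [AddMemClass.coe_add, LinearMap.add_apply, htf, huf, ← Finset.sum_add_distrib]
        simp [add_smul]
      adjoin := by
        have h := add_mem ha.adjoin hb.adjoin
        exact h
      eigen := by
        obtain ⟨i, hi⟩ := ha.eigen
        obtain ⟨j, hj⟩ := hb.eigen
        exact ⟨i + j, by show a.1 c₁ + b.1 c₁ = _; rw [hi, hj, add_nsmul]⟩ }
  zero_mem' :=
    { acts := Forms.acts_zero _ hgap
      coords := coords_zero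
      galois := fun σ _ => (smul_zero σ).symm
      forms := ⟨0, map_zero _, fun i => by simp⟩
      adjoin := zero_mem (Algebra.adjoin ℤ (heckeOperatorBar p '' goodPrimes p))
      eigen := ⟨0, (zero_nsmul c₁).symm⟩ }

theorem mem_goodSub {x : Tri hAl hlN} :
    x ∈ goodSub hAl hlN hgap c₁ ↔ IsGood hAl hlN n₀ c₁ x := Iff.rfl

include hgap in
/-- **`T_q` is good**, with its matrix on forms. -/
theorem exists_good_hecke (hp : p.Prime)
    (heig : ∀ q : Nat.Primes, (q : ℕ) ≠ p → heckeOperatorBar p q c₁ = (1 + (q : ℕ)) • c₁)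
    (q : Nat.Primes) (hq : (q : ℕ) ≠ p) :
    ∃ M, (∀ i n, OrdinaryP.heckeCoef p q ((modForms hAl p hlN).coef i) n =
        ∑ j, M i j * (modForms hAl p hlN).coef j n) ∧
      IsGood hAl hlN n₀ c₁ ((heckeOperatorBar p q).toAddMonoidHom, heckeMat p q, M) := by
  have : Fact (q : ℕ).Prime := ⟨q.2⟩
  have hqN : ¬ (q : ℕ) ∣ p := fun h => hq ((Nat.prime_dvd_prime_iff_eq q.2 hp).mp h)
  obtain ⟨M, hM, hacts⟩ := exists_acts_modCurve hAl p hlN hqN hgap
  exact ⟨M, hM,
    { acts := hacts
      coords := coords_heckeOperatorBar q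
      galois := fun σ z => Kummer.heckeOperatorBar_smul p q σ z
      forms := ⟨heckeOp p q, latticeMat_heckeOp p q, heckeOp_formBasis hAl p hlN hqN hM⟩
      adjoin := Algebra.subset_adjoin ⟨q, hq, rfl⟩
      eigen := ⟨_, heig q hq⟩ }⟩

theorem IsGood.mul_comm_left {a b : Tri hAl hlN} (ha : IsGood hAl hlN n₀ c₁ a)
    (hb : IsGood hAl hlN n₀ c₁ b) : a.2.1 * b.2.1 = b.2.1 * a.2.1 := by
  obtain ⟨t, ht, -⟩ := ha.forms
  obtain ⟨u, hu, -⟩ := hb.forms
  rw [← ht, ← hu, ← map_mul, ← map_mul, mul_comm]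

/-- The matrix on forms of an element of the Hecke algebra is unique. -/
theorem eq_of_forms {t : heckeAlgebra p 2 ∅}
    {F F' : Matrix (Fin (modCurve hAl p hlN).g) (Fin (modCurve hAl p hlN).g) ℤ}
    (h : ∀ i, (t : Module.End ℂ (S2 p)) (formBasis hAl p hlN i) =
      ∑ j, (F i j : ℂ) • formBasis hAl p hlN j)
    (h' : ∀ i, (t : Module.End ℂ (S2 p)) (formBasis hAl p hlN i) =
      ∑ j, (F' i j : ℂ) • formBasis hAl p hlN j) : F = F' :=
  Matrix.ext fun i j => Int.cast_injective (α := ℂ) (by
    have h1 := congrArg (fun v => (formBasis hAl p hlN).repr v j) ((h i).symm.trans (h' i))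
    simpa [Finsupp.single_apply] using h1)

include hgap in
/-- The tangent matrices of good operators commute. -/
theorem IsGood.mul_comm_right {a b : Tri hAl hlN} (ha : IsGood hAl hlN n₀ c₁ a)
    (hb : IsGood hAl hlN n₀ c₁ b) : a.2.2 * b.2.2 = b.2.2 * a.2.2 := by
  have hab := (mem_goodSub hAl hlN hgap c₁).mp ((goodSub hAl hlN hgap c₁).mul_mem ha hb)
  have hba := (mem_goodSub hAl hlN hgap c₁).mp ((goodSub hAl hlN hgap c₁).mul_mem hb ha)
  obtain ⟨t, ht, htf⟩ := hab.forms
  obtain ⟨u, hu, huf⟩ := hba.forms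
  obtain rfl : t = u := latticeMat_injective p (by
    rw [ht, hu]; exact IsGood.mul_comm_left hAl hlN c₁ ha hb)
  exact eq_of_forms hAl hlN htf huf

end Good

end Finite

end Fermat.Agent.MazurStep
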