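import Fermat.Agent.MazurStep.Finite.Ops
import Fermat.Agent.MazurStep.Finite.Limit
import Fermat.Agent.MazurStep.Global.Selmer
import Fermat.Agent.MazurStep.Global.Relation
import Fermat.Agent.Reduction.Specialisation

/-!
# The Eisenstein piece

Among the good operators one is idempotent modulo `l`, fixes the given Eisenstein point and makes
every good operator killing that point nilpotent. Its fixed points on the `l`-torsion form the
Eisenstein piece, with the formal group data at `l`.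
-/

set_option autoImplicit false

noncomputable section

open Matrix ModularCurve AlgebraicCurve
open CuspForm (heckeAlgebra)

namespace Fermat.Agent.MazurStep.Finite

open Fermat.Agent.GalRep Fermat.Agent.Cosets Fermat.Agent.Kummer
open Fermat.Agent.Reduction.CurveRed (GapBound)

local notation "ℚbar" => AlgebraicClosure ℚ
local notation "Γℚ" => AlgebraicClosure ℚ ≃ₐ[ℚ] AlgebraicClosure ℚ
local notation "S2" N => CuspForm (CongruenceSubgroup.Gamma0 N) 2

variable {p l : ℕ} [NeZero p] [Fact l.Prime] {Al : ValuationSubring ℚbar}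
  (hAl : Al.LiesOverPrime l) (hlN : ¬ l ∣ p) {n₀ : ℕ}
  (hgap : (modCurve hAl p hlN).GapBound n₀) (c₁ : JZero p)

variable {hAl hlN c₁} in
theorem good_pow (hgap : (modCurve hAl p hlN).GapBound n₀) {y : Tri hAl hlN}
    (hy : IsGood hAl hlN n₀ c₁ y) (N : ℕ) : IsGood hAl hlN n₀ c₁ (y ^ N) := by
  induction N with
  | zero => rw [pow_zero]; exact (goodSub hAl hlN hgap c₁).one_mem
  | succ n ih => rw [pow_succ]; exact (goodSub hAl hlN hgap c₁).mul_mem ih hy

/-- Reduction of the matrices modulo `l`. -/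
def red : Tri hAl hlN →+* Matrix (Fin (homRank p)) (Fin (homRank p)) (ZMod l) ×
    Matrix (Fin (modCurve hAl p hlN).g) (Fin (modCurve hAl p hlN).g) (ZMod l) :=
  ((Int.castRingHom (ZMod l)).mapMatrix.comp ((RingHom.fst _ _).comp (RingHom.snd _ _))).prod
    ((Int.castRingHom (ZMod l)).mapMatrix.comp ((RingHom.snd _ _).comp (RingHom.snd _ _)))

theorem red_fst (x : Tri hAl hlN) : (red hAl hlN x).1 = x.2.1.map (Int.cast : ℤ → ZMod l) := rfl

theorem red_snd (x : Tri hAl hlN) : (red hAl hlN x).2 = x.2.2.map (Int.cast : ℤ → ZMod l) := rfl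

theorem natCast_pred_eq_neg_one (R : Type*) [Ring R] (h : (l : R) = 0) :
    ((l - 1 : ℕ) : R) = -1 := by
  rw [Nat.cast_sub (Fact.out : l.Prime).pos, h, Nat.cast_one, zero_sub]

theorem natCast_l_eq_zero :
    ((l : ℕ) : Matrix (Fin (homRank p)) (Fin (homRank p)) (ZMod l) ×
      Matrix (Fin (modCurve hAl p hlN).g) (Fin (modCurve hAl p hlN).g) (ZMod l)) = 0 := by
  refine Prod.ext ?_ ?_
  all_goals
    simp only [Prod.fst_natCast, Prod.snd_natCast, ← Matrix.diagonal_natCast, ZMod.natCast_self]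
    exact Matrix.diagonal_zero

theorem natCast_apply_c (k : ℕ) (y : Tri hAl hlN) :
    ((k : Tri hAl hlN) * y).1 c₁ = k • y.1 c₁ := by
  show ((k : Tri hAl hlN).1 : AddMonoid.End (JZero p)) (y.1 c₁) = _
  rw [Prod.fst_natCast, AddMonoid.End.natCast_apply]

include hgap in
theorem red_commute {a b : Tri hAl hlN} (ha : IsGood hAl hlN n₀ c₁ a)
    (hb : IsGood hAl hlN n₀ c₁ b) : Commute (red hAl hlN a) (red hAl hlN b) := by
  show red hAl hlN a * red hAl hlN b = red hAl hlN b * red hAl hlN a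
  rw [← map_mul, ← map_mul]
  refine Prod.ext ?_ ?_
  · rw [red_fst, red_fst]
    exact congrArg (fun M => M.map (Int.cast : ℤ → ZMod l))
      (IsGood.mul_comm_left hAl hlN c₁ ha hb)
  · rw [red_snd, red_snd]
    exact congrArg (fun M => M.map (Int.cast : ℤ → ZMod l))
      (IsGood.mul_comm_right hAl hlN hgap c₁ ha hb)

/-- Two operators with the same matrix modulo `l` agree on `l`-torsion. -/
theorem apply_eq_of_red {a b : Tri hAl hlN} (ha : IsGood hAl hlN n₀ c₁ a)
    (hb : IsGood hAl hlN n₀ c₁ b) (h : (red hAl hlN a).1 = (red hAl hlN b).1) {z : JZero p}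
    (hz : l • z = 0) : a.1 z = b.1 z := by
  have hm : z ∈ Tors p l := by rw [Pic0.mem_torsion, natCast_zsmul, hz]
  rw [red_fst, red_fst] at h
  have e : (⟨a.1 z, map_mem_tors (a.1 : JZero p →+ JZero p) hm⟩ : Tors p l) =
      ⟨b.1 z, map_mem_tors (b.1 : JZero p →+ JZero p) hm⟩ :=
    (torsCoord p l).injective ((ha.coords l ⟨z, hm⟩ _).trans
      ((congrArg (fun M => M *ᵥ torsCoord p l ⟨z, hm⟩) h).trans (hb.coords l ⟨z, hm⟩ _).symm))
  exact congrArg Subtype.val e

include hgap in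
theorem apply_comm {a b : Tri hAl hlN} (ha : IsGood hAl hlN n₀ c₁ a)
    (hb : IsGood hAl hlN n₀ c₁ b) {z : JZero p} (hz : l • z = 0) :
    a.1 (b.1 z) = b.1 (a.1 z) :=
  apply_eq_of_red hAl hlN c₁ ((goodSub hAl hlN hgap c₁).mul_mem ha hb)
    ((goodSub hAl hlN hgap c₁).mul_mem hb ha)
    (by rw [map_mul, map_mul, (red_commute hAl hlN hgap c₁ ha hb).eq]) hz

/-- The operator cutting out the Eisenstein piece. -/
structure IsPieceOp (n₀ : ℕ) (c₁ : JZero p) (x : Tri hAl hlN) : Prop where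
  good : IsGood hAl hlN n₀ c₁ x
  idem : red hAl hlN x * red hAl hlN x = red hAl hlN x
  fix : x.1 c₁ = c₁
  nilp : ∀ y, IsGood hAl hlN n₀ c₁ y → y.1 c₁ = 0 →
    ∃ N : ℕ, red hAl hlN y ^ N * red hAl hlN x = 0

include hgap in
/-- **The piece exists.** -/
theorem exists_pieceOp : ∃ x, IsPieceOp hAl hlN n₀ c₁ x := by
  classical
  let P := red hAl hlN '' {y | IsGood hAl hlN n₀ c₁ y ∧ y.1 c₁ = 0}
  have hfin : P.Finite := Set.toFinite P
  suffices key : ∀ s : Finset _, ↑s ⊆ P → ∃ u, IsGood hAl hlN n₀ c₁ u ∧ u.1 c₁ = c₁ ∧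
      red hAl hlN u * red hAl hlN u = red hAl hlN u ∧
      ∀ b ∈ s, ∃ N : ℕ, b ^ N * red hAl hlN u = 0 by
    obtain ⟨u, hu, hfix, hidem, hnilp⟩ := key hfin.toFinset (by simp)
    exact ⟨u, hu, hidem, hfix, fun y hy hy0 =>
      hnilp _ (hfin.mem_toFinset.mpr ⟨y, ⟨hy, hy0⟩, rfl⟩)⟩
  intro s
  induction s using Finset.induction with
  | empty =>
    exact fun _ => ⟨1, (goodSub hAl hlN hgap c₁).one_mem, rfl, by simp, by simp⟩
  | insert b s hb ih =>
    intro hs
    rw [Finset.coe_insert, Set.insert_subset_iff] at hs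
    obtain ⟨u, hu, hufix, hui, hun⟩ := ih hs.2
    obtain ⟨y, ⟨hy, hy0⟩, rfl⟩ := hs.1
    obtain ⟨N, hN, hidem⟩ := exists_pow_mul_pow (red hAl hlN y)
    set w : Tri hAl hlN := 1 + ((l - 1 : ℕ) : Tri hAl hlN) * y ^ N with hw
    have hyN : IsGood hAl hlN n₀ c₁ (y ^ N) := (good_pow hgap hy N)
    have hwg : IsGood hAl hlN n₀ c₁ w := (goodSub hAl hlN hgap c₁).add_mem
      (goodSub hAl hlN hgap c₁).one_mem
      ((goodSub hAl hlN hgap c₁).mul_mem (natCast_mem _ _) hyN)
    have hwred : red hAl hlN w = 1 - red hAl hlN y ^ N := by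
      rw [hw, map_add, map_one, map_mul, map_natCast (red hAl hlN), map_pow,
        natCast_pred_eq_neg_one _ (natCast_l_eq_zero hAl hlN), neg_one_mul, sub_eq_add_neg]
    have hwc : w.1 c₁ = c₁ := by
      obtain ⟨M, rfl⟩ : ∃ M, N = M + 1 := ⟨N - 1, by omega⟩
      have h0 : (y ^ (M + 1)).1 c₁ = 0 := by
        rw [pow_succ]
        show (y ^ M).1 (y.1 c₁) = 0
        rw [hy0, map_zero]
      show c₁ + (((l - 1 : ℕ) : Tri hAl hlN) * y ^ (M + 1)).1 c₁ = c₁
      rw [natCast_apply_c, h0, nsmul_zero, add_zero]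
    have hcw : Commute (red hAl hlN u) (red hAl hlN w) := red_commute hAl hlN hgap c₁ hu hwg
    have hcy : Commute (red hAl hlN y ^ N) (red hAl hlN u) :=
      ((red_commute hAl hlN hgap c₁ hu hy).symm).pow_left N
    refine ⟨u * w, (goodSub hAl hlN hgap c₁).mul_mem hu hwg, ?_, ?_, ?_⟩
    · show u.1 (w.1 c₁) = c₁
      rw [hwc, hufix]
    · rw [map_mul, Commute.mul_mul_mul_comm hcw.symm, hui, hwred]
      congr 1
      rw [mul_sub, sub_mul, sub_mul, one_mul, one_mul, mul_one, hidem, sub_self, sub_zero]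
    · intro b' hb'
      rw [map_mul]
      rcases Finset.mem_insert.mp hb' with rfl | h
      · exact ⟨N, by rw [← mul_assoc, hcy.eq, mul_assoc, hwred, mul_sub, mul_one, hidem, sub_self,
          mul_zero]⟩
      · obtain ⟨N', hN'⟩ := hun b' h
        exact ⟨N', by rw [← mul_assoc, hN', zero_mul]⟩

variable {hAl hlN c₁} {x : Tri hAl hlN}

/-- The Eisenstein piece of the `l`-torsion. -/
def pieceGroup (x : Tri hAl hlN) : AddSubgroup (JZero p) where
  carrier := {z | l • z = 0 ∧ x.1 z = z}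
  zero_mem' := ⟨nsmul_zero _, map_zero _⟩
  add_mem' {a b} ha hb := ⟨by rw [nsmul_add, ha.1, hb.1, add_zero], by rw [map_add, ha.2, hb.2]⟩
  neg_mem' {a} ha := ⟨by rw [neg_nsmul, ha.1, neg_zero], by rw [map_neg, ha.2]⟩

theorem finite_tors : _root_.Finite (Tors p l) := by
  exact _root_.Finite.of_equiv _ (torsCoord p l).toEquiv.symm

theorem finite_pieceGroup : _root_.Finite (pieceGroup x) := by
  have : _root_.Finite (Tors p l) := finite_tors
  refine _root_.Finite.of_injective (fun z => (⟨z.1, ?_⟩ : Tors p l)) fun a b h =>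
    Subtype.ext (Subtype.mk.injEq .. ▸ h)
  rw [Pic0.mem_torsion, natCast_zsmul, z.2.1]

theorem IsPieceOp.stable (hx : IsPieceOp hAl hlN n₀ c₁ x) (σ : Γℚ) {z : JZero p}
    (hz : z ∈ pieceGroup x) : σ • z ∈ pieceGroup x :=
  ⟨by rw [← galois_nsmul, hz.1, galois_zero], by rw [hx.good.galois, hz.2]⟩

include hgap in
theorem IsPieceOp.apply_mem (hx : IsPieceOp hAl hlN n₀ c₁ x) {y : Tri hAl hlN}
    (hy : IsGood hAl hlN n₀ c₁ y) {z : JZero p} (hz : z ∈ pieceGroup x) :
    y.1 z ∈ pieceGroup x :=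
  ⟨by rw [← map_nsmul, hz.1, map_zero],
    by rw [apply_comm hAl hlN hgap c₁ hx.good hy hz.1, hz.2]⟩

include hgap in
/-- A good operator killing the Eisenstein point is nilpotent on the piece. -/
theorem IsPieceOp.pow_apply_eq_zero (hx : IsPieceOp hAl hlN n₀ c₁ x) {y : Tri hAl hlN}
    (hy : IsGood hAl hlN n₀ c₁ y) (hy0 : y.1 c₁ = 0) :
    ∃ N : ℕ, ∀ z ∈ pieceGroup x, (y ^ N).1 z = 0 := by
  obtain ⟨N, hN⟩ := hx.nilp y hy hy0
  refine ⟨N, fun z hz => ?_⟩
  have h := apply_eq_of_red hAl hlN c₁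
    ((goodSub hAl hlN hgap c₁).mul_mem ((good_pow hgap hy N)) hx.good)
    (goodSub hAl hlN hgap c₁).zero_mem (by rw [map_mul, map_pow, hN, map_zero]) hz.1
  rw [← hz.2]
  exact h

include hgap in
/-- **The Eisenstein piece.** -/
theorem IsPieceOp.eisensteinPiece (hp : p.Prime) (hx : IsPieceOp hAl hlN n₀ c₁ x)
    (hlc : l • c₁ = 0)
    (heig : ∀ q : Nat.Primes, (q : ℕ) ≠ p → heckeOperatorBar p q c₁ = (1 + (q : ℕ)) • c₁) :
    Global.EisensteinPiece l (pieceGroup x) := by
  have hnd : ∀ q : ℕ, q.Prime → q ≠ l → q ≠ p → ¬ q ∣ p * l := fun q hq h1 h2 h => by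
    rcases hq.dvd_mul.mp h with h | h
    · exact h2 ((Nat.prime_dvd_prime_iff_eq hq hp).mp h)
    · exact h1 ((Nat.prime_dvd_prime_iff_eq hq Fact.out).mp h)
  have hpow : ∀ z ∈ pieceGroup x, ∃ n : ℕ, l ^ n • z = 0 :=
    fun z hz => ⟨1, by rw [pow_one, hz.1]⟩
  refine ⟨fun z hz => hz.1, finite_pieceGroup, fun σ z hz => hx.stable σ hz, ?_,
    fun q hq h1 h2 A hA σ hσ z hz =>
      (Reduction.torsionReduction p l q hq (hnd q hq h1 h2) A hA).1 σ hσ z (hpow z hz), ?_⟩
  · obtain ⟨L, hL, h⟩ := torsion_finiteLevel p l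
    refine ⟨L, hL, fun σ hσ z hz => ?_⟩
    have hm : z ∈ Tors p l := by rw [Pic0.mem_torsion, natCast_zsmul, hz.1]
    have h1 := JZero.coe_torsionGaloisRep_apply p σ (⟨z, hm⟩ : Tors p l)
    rw [h σ hσ] at h1
    exact h1.symm
  intro q hq hql hqp A hA σ hσ
  obtain ⟨M, -, hT⟩ := exists_good_hecke hAl hlN hgap c₁ hp heig ⟨q, hq⟩ hqp
  set T : Tri hAl hlN := ((heckeOperatorBar p ⟨q, hq⟩).toAddMonoidHom, heckeMat p ⟨q, hq⟩, M)
  set k : Tri hAl hlN := T + ((l - 1) * (1 + q) : ℕ) with hk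
  have hkg : IsGood hAl hlN n₀ c₁ k :=
    (goodSub hAl hlN hgap c₁).add_mem hT (natCast_mem _ _)
  have hkapp : ∀ z, k.1 z = heckeOperatorBar p ⟨q, hq⟩ z + ((l - 1) * (1 + q)) • z := fun z => by
    show T.1 z + (((l - 1) * (1 + q) : ℕ) : Tri hAl hlN).1 z = _
    rw [Prod.fst_natCast, AddMonoid.End.natCast_apply]
    rfl
  have hk0 : k.1 c₁ = 0 := by
    rw [hkapp, heig ⟨q, hq⟩ hqp, ← add_nsmul, show (1 + q) + (l - 1) * (1 + q) = (1 + q) * l by
      obtain ⟨l', hl'⟩ := Nat.exists_eq_add_of_le (Fact.out : l.Prime).pos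
      rw [hl', Nat.succ_eq_add_one, zero_add, Nat.add_sub_cancel_left]; ring,
      mul_nsmul', hlc, nsmul_zero]
  have hf : ∀ z ∈ pieceGroup x,
      σ • σ • z - (1 + q) • (σ • z) + q • z = k.1 (σ • z) := fun z hz => by
    have hq' := (Reduction.torsionReduction p l q hq (hnd q hq hql hqp) A hA).2 σ hσ z (hpow z hz)
    have hs : ((l - 1) * (1 + q)) • (σ • z) + (1 + q) • (σ • z) = 0 := by
      rw [← add_nsmul, show (l - 1) * (1 + q) + (1 + q) = (1 + q) * l by
        obtain ⟨l', hl'⟩ := Nat.exists_eq_add_of_le (Fact.out : l.Prime).pos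
        rw [hl', Nat.succ_eq_add_one, zero_add, Nat.add_sub_cancel_left]; ring,
        mul_nsmul', (hx.stable σ hz).1, nsmul_zero]
    rw [hkapp, eq_neg_of_add_eq_zero_left hs]
    linear_combination (norm := abel) hq'
  obtain ⟨N, hN⟩ := hx.pow_apply_eq_zero hgap hkg hk0
  refine ⟨N, fun z hz => ?_⟩
  suffices key : ∀ n : ℕ, ∀ z ∈ pieceGroup x,
      (fun y : JZero p => σ • σ • y - (1 + q) • (σ • y) + q • y)^[n] z = (k ^ n).1 (σ ^ n • z) by
    rw [key N z hz, hN _ (hx.stable _ hz)]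
  intro n
  induction n with
  | zero => intro z _; simp
  | succ n ih =>
    intro z hz
    rw [Function.iterate_succ_apply, hf z hz, ih _ (hx.apply_mem hgap hkg (hx.stable σ hz)),
      ← hkg.galois, smul_smul, ← pow_succ, pow_succ k]
    rfl

/-- The trace on the lattice is twice the trace on forms. -/
theorem IsGood.trace_eq {y : Tri hAl hlN} (hy : IsGood hAl hlN n₀ c₁ y) :
    y.2.1.trace = 2 * y.2.2.trace := by
  classical
  have := MFCore.finiteDimensional_cuspForm_Gamma0 p 2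
  obtain ⟨t, ht, htf⟩ := hy.forms
  have hmat : LinearMap.toMatrix (formBasis hAl p hlN) (formBasis hAl p hlN)
      (t : Module.End ℂ (S2 p)) = (y.2.2.map (Int.cast : ℤ → ℂ))ᵀ := by
    ext j i
    rw [LinearMap.toMatrix_apply, htf, Matrix.transpose_apply, Matrix.map_apply]
    simp [Finsupp.single_apply]
  have h := congrArg Polynomial.nextCoeff (Global.charpoly_latticeMat p t)
  rw [← LinearMap.charpoly_toMatrix (f := (t : Module.End ℂ (S2 p))) (formBasis hAl p hlN), hmat,
    Matrix.charpoly_transpose, sq,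
    (Matrix.charpoly_monic _).nextCoeff_mul (Matrix.charpoly_monic _), ht] at h
  refine Int.cast_injective (α := ℂ) ?_
  have e1 : ∀ {n : Type} [Fintype n] [DecidableEq n] (B : Matrix n n ℤ),
      ((B.trace : ℤ) : ℂ) = -(B.map (Int.cast : ℤ → ℂ)).charpoly.nextCoeff := fun B => by
    rw [← Matrix.trace_eq_neg_charpoly_nextCoeff]
    simp [Matrix.trace]
  rw [Int.cast_mul, e1, e1, h]
  push_cast
  ring

/-- The rank on forms modulo `l`. -/
def pieceRank (x : Tri hAl hlN) : ℕ :=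
  Module.finrank (IsLocalRing.ResidueField Al)
    (LinearMap.range (x.2.2.map (Int.cast : ℤ → IsLocalRing.ResidueField Al)).mulVecLin)

include hgap in
/-- **The formal group data of the piece.** -/
theorem IsPieceOp.exists_formalData_piece (hp : p.Prime) (hx : IsPieceOp hAl hlN n₀ c₁ x)
    (hlc : l • c₁ = 0)
    (heig : ∀ q : Nat.Primes, (q : ℕ) ≠ p → heckeOperatorBar p q c₁ = (1 + (q : ℕ)) • c₁) :
    Nonempty (Global.FormalData l Al (pieceGroup x) (pieceRank x)) := by
  have hlp' : l ≠ p := fun h => hlN (h ▸ dvd_rfl)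
  obtain ⟨M, hM, hT⟩ := exists_good_hecke hAl hlN hgap c₁ hp heig ⟨l, Fact.out⟩ hlp'
  set T : Tri hAl hlN :=
    ((heckeOperatorBar p ⟨l, Fact.out⟩).toAddMonoidHom, heckeMat p ⟨l, Fact.out⟩, M)
  set k : Tri hAl hlN := T + (l - 1 : ℕ) with hk
  have hkg : IsGood hAl hlN n₀ c₁ k :=
    (goodSub hAl hlN hgap c₁).add_mem hT (natCast_mem _ _)
  have hk0 : k.1 c₁ = 0 := by
    show T.1 c₁ + ((l - 1 : ℕ) : Tri hAl hlN).1 c₁ = 0
    rw [Prod.fst_natCast, AddMonoid.End.natCast_apply]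
    show heckeOperatorBar p ⟨l, Fact.out⟩ c₁ + _ = 0
    rw [heig ⟨l, Fact.out⟩ hlp', ← add_nsmul, show 1 + l + (l - 1) = l + l by
      have := (Fact.out : l.Prime).pos; omega, add_nsmul, hlc, add_zero]
  obtain ⟨N, hN⟩ := hx.nilp k hkg hk0
  have hkred : red hAl hlN k = red hAl hlN T - 1 := by
    rw [hk, map_add, map_natCast (red hAl hlN),
      natCast_pred_eq_neg_one _ (natCast_l_eq_zero hAl hlN),
      sub_eq_add_neg]
  set e := red hAl hlN x
  set t := red hAl hlN T
  set m := -(red hAl hlN k) with hm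
  have ht : t = 1 - m := by rw [hm, hkred]; abel
  set inv := ∑ i ∈ Finset.range N, m ^ i with hinv
  have hinvE : inv * (e * t) = e := by
    have hce : Commute e t := red_commute hAl hlN hgap c₁ hx.good hT
    rw [hce.eq, ← mul_assoc, ht, hinv, geom_sum_mul_neg, sub_mul, one_mul, hm, neg_pow, mul_assoc,
      hN, mul_zero, sub_zero]
  let M' : Matrix (Fin (modCurve hAl p hlN).g) (Fin (modCurve hAl p hlN).g) ℤ :=
    inv.2.map fun a => (a.val : ℤ)
  have hdvd : ∀ (B C : Matrix (Fin (modCurve hAl p hlN).g) (Fin (modCurve hAl p hlN).g) ℤ),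
      B.map (Int.cast : ℤ → ZMod l) = C.map (Int.cast : ℤ → ZMod l) →
      ∀ i j, (l : ℤ) ∣ B i j - C i j := fun B C h i j =>
    (ZMod.intCast_eq_intCast_iff_dvd_sub _ _ _).mp (congrFun (congrFun h i) j).symm
  have hinverse : ∀ i j, (l : ℤ) ∣ (M' * (x.2.2 * M)) i j - x.2.2 i j := hdvd _ _ (by
    have h := congrArg Prod.snd hinvE
    rw [Prod.snd_mul, Prod.snd_mul] at h
    rw [Matrix.map_mul_intCast, Matrix.map_mul_intCast]
    refine Eq.trans ?_ h
    congr 1
    ext i j
    simp [M'])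
  let L := modLocalData hAl p hlN hgap M x.2.2 M'
    ((modForms hAl p hlN).isFrobMatrix_of_heckeCoef hM) hinverse
  have hEE : ∀ i j, (l : ℤ) ∣ (x.2.2 * x.2.2) i j - x.2.2 i j := hdvd _ _ (by
    rw [Matrix.map_mul_intCast]; exact congrArg Prod.snd hx.idem)
  have hEM : ∀ i j, (l : ℤ) ∣ (x.2.2 * M) i j - (M * x.2.2) i j := hdvd _ _ (by
    rw [IsGood.mul_comm_right hAl hlN hgap c₁ hx.good hT])
  obtain ⟨F, -⟩ := exists_formalData hAl L rfl hEE hEM x.1 hx.good.acts hx.good.galois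
    (pieceGroup x) (fun z hz => hz.1) (fun z hz => hz.2) (fun σ z hz => hx.stable σ hz)
    (le_refl (pieceRank x))
  exact ⟨F⟩

include hgap in
/-- **The Selmer bound for the piece.** -/
theorem IsPieceOp.selmer_le (hp : p.Prime) (hx : IsPieceOp hAl hlN n₀ c₁ x) (hlc : l • c₁ = 0)
    (heig : ∀ q : Nat.Primes, (q : ℕ) ≠ p → heckeOperatorBar p q c₁ = (1 + (q : ℕ)) • c₁)
    {Ap : ValuationSubring ℚbar} (hAp : Ap.LiesOverPrime p) :
    _root_.Finite (Global.selmer (pieceGroup x) l Al Ap) ∧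
      Nat.card (Global.selmer (pieceGroup x) l Al Ap) ≤ l ^ pieceRank x := by
  obtain ⟨F⟩ := hx.exists_formalData_piece hgap hp hlc heig
  exact Global.selmer_card_le Fact.out hAl hAp
    (hx.eisensteinPiece hgap hp hlc heig) F

include hgap in
/-- **The limit idempotents and their ranks.** -/
theorem IsPieceOp.exists_limit (hx : IsPieceOp hAl hlN n₀ c₁ x) :
    ∃ E : Matrix (Fin (homRank p)) (Fin (homRank p)) ℤ_[l], E * E = E ∧
      (∀ n, E.map (PadicInt.toZModPow n) =
        (x.2.1 ^ l ^ n).map (Int.cast : ℤ → ZMod (l ^ n))) ∧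
      2 * pieceRank x ≤
        Module.finrank ℚ_[l] (LinearMap.range (E.map ((↑) : ℤ_[l] → ℚ_[l])).mulVecLin) ∧
      E.map ((↑) : ℤ_[l] → ℚ_[l]) ∈
        Algebra.adjoin ℚ_[l] (Set.range fun q => (heckeMat p q).map (Int.cast : ℤ → ℚ_[l])) := by
  have hd1 : ∀ i j, (l : ℤ) ∣ (x.2.1 * x.2.1 - x.2.1) i j := fun i j => by
    rw [← ZMod.intCast_zmod_eq_zero_iff_dvd, Matrix.sub_apply, Int.cast_sub, sub_eq_zero]
    exact congrFun (congrFun (congrArg Prod.fst
      ((map_mul (red hAl hlN) x x).trans hx.idem)) i) j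
  have hd2 : ∀ i j, (l : ℤ) ∣ (x.2.2 * x.2.2 - x.2.2) i j := fun i j => by
    rw [← ZMod.intCast_zmod_eq_zero_iff_dvd, Matrix.sub_apply, Int.cast_sub, sub_eq_zero]
    exact congrFun (congrFun (congrArg Prod.snd
      ((map_mul (red hAl hlN) x x).trans hx.idem)) i) j
  obtain ⟨E, hEE, hE, -⟩ := exists_idem_limit hd1
  obtain ⟨F, hFF, hF, -⟩ := exists_idem_limit hd2
  refine ⟨E, hEE, hE, ?_, ?_⟩
  · have := Gal.charP_residueField Al (Fact.out (p := l.Prime)) hAl
    let φ : ℤ_[l] →+* IsLocalRing.ResidueField Al :=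
      (ZMod.castHom (dvd_pow_self l one_ne_zero) (IsLocalRing.ResidueField Al)).comp
        (PadicInt.toZModPow 1)
    have hφ : F.map φ = x.2.2.map (Int.cast : ℤ → IsLocalRing.ResidueField Al) := by
      have hi : (x.2.2 ^ l).map (Int.cast : ℤ → ZMod l) = x.2.2.map (Int.cast : ℤ → ZMod l) := by
        have h := congrArg Prod.snd
          (IsIdempotentElem.pow_eq hx.idem (Fact.out : l.Prime).ne_zero)
        rw [← map_pow] at h
        exact h
      ext i j
      have h1 := congrFun (congrFun (hF 1) i) j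
      rw [Matrix.map_apply, Matrix.map_apply] at h1
      rw [Matrix.map_apply, Matrix.map_apply, RingHom.comp_apply, h1, map_intCast]
      have h2 := congrArg (ZMod.castHom (dvd_refl l) (IsLocalRing.ResidueField Al))
        (congrFun (congrFun hi i) j)
      rw [Matrix.map_apply, Matrix.map_apply, map_intCast, map_intCast] at h2
      rwa [pow_one]
    have hle := finrank_range_map_le φ F
    rw [hφ] at hle
    have htr := trace_eq_two_mul_of_limit hE hF fun j =>
      IsGood.trace_eq (good_pow hgap hx.good j)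
    have hr : (Module.finrank ℚ_[l]
          (LinearMap.range (E.map ((↑) : ℤ_[l] → ℚ_[l])).mulVecLin) : ℚ_[l]) =
        ((2 * Module.finrank ℚ_[l]
          (LinearMap.range (F.map ((↑) : ℤ_[l] → ℚ_[l])).mulVecLin) : ℕ) : ℚ_[l]) := by
      have hEK : E.map PadicInt.Coe.ringHom * E.map PadicInt.Coe.ringHom =
          E.map PadicInt.Coe.ringHom := by rw [← Matrix.map_mul, hEE]
      have hFK : F.map PadicInt.Coe.ringHom * F.map PadicInt.Coe.ringHom =
          F.map PadicInt.Coe.ringHom := by rw [← Matrix.map_mul, hFF]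
      rw [Nat.cast_mul, Nat.cast_ofNat]
      refine ((trace_eq_rank hEK).symm.trans ?_).trans (congrArg (2 * ·) (trace_eq_rank hFK))
      show (E.map ⇑PadicInt.Coe.ringHom).trace = 2 * (F.map ⇑PadicInt.Coe.ringHom).trace
      rw [← AddMonoidHom.map_trace, ← AddMonoidHom.map_trace, htr, map_mul, map_ofNat]
    rw [Nat.cast_inj] at hr
    rw [hr]
    exact Nat.mul_le_mul_left 2 hle
  · have hmem : E ∈ Submodule.span ℤ_[l]
        (Set.range fun t : heckeAlgebra p 2 ∅ =>
          (latticeMat p t).map (Int.cast : ℤ → ℤ_[l])) := by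
      obtain ⟨t, ht, -⟩ := hx.good.forms
      refine Global.mem_of_forall_exists_sub_eq _ _ fun n =>
        ⟨_, Submodule.subset_span ⟨t ^ l ^ n, rfl⟩, ?_⟩
      have hd : ∀ i j, (l : ℤ_[l]) ^ n ∣
          (E - (latticeMat p (t ^ l ^ n)).map (Int.cast : ℤ → ℤ_[l])) i j := fun i j => by
        rw [← Ideal.mem_span_singleton, ← PadicInt.ker_toZModPow, RingHom.mem_ker,
          Matrix.sub_apply, map_sub, Matrix.map_apply, map_intCast, map_pow, ht, sub_eq_zero]
        exact congrFun (congrFun (hE n) i) j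
      choose y hy using hd
      exact ⟨Matrix.of y, Matrix.ext fun i j => by rw [hy i j]; rfl⟩
    have hA : ∀ t : heckeAlgebra p 2 ∅, (latticeMat p t).map (Int.cast : ℤ → ℚ_[l]) ∈
        Algebra.adjoin ℚ_[l] (Set.range fun q => (heckeMat p q).map (Int.cast : ℤ → ℚ_[l])) := by
      intro t
      induction t using heckeAlgebra_induction with
      | op q => rw [latticeMat_heckeOp]; exact Algebra.subset_adjoin ⟨q, rfl⟩
      | int r =>
        show (Int.castRingHom ℚ_[l]).mapMatrix (latticeMat p r) ∈ _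
        rw [map_intCast, map_intCast]; exact intCast_mem _ r
      | add a b ha hb =>
        show (Int.castRingHom ℚ_[l]).mapMatrix (latticeMat p (a + b)) ∈ _
        rw [map_add, map_add]; exact add_mem ha hb
      | mul a b ha hb =>
        show (Int.castRingHom ℚ_[l]).mapMatrix (latticeMat p (a * b)) ∈ _
        rw [map_mul, map_mul]; exact mul_mem ha hb
    clear hEE hE
    induction hmem using Submodule.span_induction with
    | mem y hy =>
      obtain ⟨t, rfl⟩ := hy
      simp only []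
      convert hA t using 1
      exact Matrix.ext fun a b => map_intCast PadicInt.Coe.ringHom (latticeMat p t a b)
    | zero => rw [Matrix.map_zero _ PadicInt.coe_zero]; exact zero_mem _
    | add a b _ _ ha hb => rw [Matrix.map_add _ PadicInt.coe_add]; exact add_mem ha hb
    | smul c a _ ha =>
      have e : (c • a).map ((↑) : ℤ_[l] → ℚ_[l]) = (c : ℚ_[l]) • a.map ((↑) : ℤ_[l] → ℚ_[l]) :=
        Matrix.ext fun i j => PadicInt.coe_mul c (a i j)
      rw [e]; exact Subalgebra.smul_mem _ ha _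

end Fermat.Agent.MazurStep.Finite
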